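import Mathlib
import Fermat.Prelude.Def_GaloisRep_Adic

/-!
Matrix forms of two-dimensional Galois representations over local rings.
-/

set_option autoImplicit false

noncomputable section

namespace Fermat.Agent.Deform

open IsLocalRing Module
open scoped TensorProduct

/-- The absolute Galois group of the rationals. -/
abbrev Γ := AlgebraicClosure ℚ ≃ₐ[ℚ] AlgebraicClosure ℚ

/-- The type of square matrices of size two. -/
abbrev M2 (A : Type) := Matrix (Fin 2) (Fin 2) A

section General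

variable {R : Type} [CommRing R] {V W : Type} [AddCommGroup V] [Module R V] [AddCommGroup W]
  [Module R W]

/-- The matrix of a representation in a basis. -/
def repMat (b : Basis (Fin 2) R V) (ρ : Γ →* Module.End R V) : Γ →* M2 R :=
  (LinearMap.toMatrixAlgEquiv b : Module.End R V ≃ₐ[R] M2 R).toAlgHom.toRingHom.toMonoidHom.comp ρ

lemma repMat_apply (b : Basis (Fin 2) R V) (ρ : Γ →* Module.End R V) (σ : Γ) :
    repMat b ρ σ = LinearMap.toMatrix b b (ρ σ) := rfl

/-- Intertwiners correspond to invertible matrices intertwining the matrix forms. -/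
lemma exists_equiv_iff (b : Basis (Fin 2) R V) (c : Basis (Fin 2) R W)
    (ρ : Γ →* Module.End R V) (τ : Γ →* Module.End R W) :
    (∃ e : V ≃ₗ[R] W, ∀ σ x, e (ρ σ x) = τ σ (e x)) ↔
      ∃ M : M2 R, IsUnit M ∧ ∀ σ, M * repMat b ρ σ = repMat c τ σ * M := by
  constructor
  · rintro ⟨e, he⟩
    refine ⟨LinearMap.toMatrix b c e.toLinearMap,
      IsUnit.of_mul_eq_one (LinearMap.toMatrix c b e.symm.toLinearMap) ?_, fun σ => ?_⟩
    · rw [← LinearMap.toMatrix_comp c b c, LinearEquiv.comp_symm, LinearMap.toMatrix_id]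
    · rw [repMat_apply, repMat_apply, ← LinearMap.toMatrix_comp b b c,
        ← LinearMap.toMatrix_comp b c c]
      congr 1
      exact LinearMap.ext fun x => he σ x
  · rintro ⟨M, ⟨u, rfl⟩, hM⟩
    let f := Matrix.toLin b c (u : M2 R)
    let g := Matrix.toLin c b ((u⁻¹ : (M2 R)ˣ) : M2 R)
    have h1 : f ∘ₗ g = LinearMap.id := by
      rw [← Matrix.toLin_mul c b c, Units.mul_inv, Matrix.toLin_one]
    have h2 : g ∘ₗ f = LinearMap.id := by
      rw [← Matrix.toLin_mul b c b, Units.inv_mul, Matrix.toLin_one]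
    refine ⟨LinearEquiv.ofLinear f g h1 h2, fun σ x => ?_⟩
    have := congrArg (Matrix.toLin b c) (hM σ)
    rw [Matrix.toLin_mul b b c, Matrix.toLin_mul b c c, repMat_apply, repMat_apply,
      Matrix.toLin_toMatrix, Matrix.toLin_toMatrix] at this
    exact DFunLike.congr_fun this x

lemma toMatrix_baseChange_endo (B : Type) [CommRing B] [Algebra R B] (b : Basis (Fin 2) R V)
    (f : V →ₗ[R] V) :
    LinearMap.toMatrix (Algebra.TensorProduct.basis B b) (Algebra.TensorProduct.basis B b) (f.baseChange B) =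
      (LinearMap.toMatrix b b f).map (algebraMap R B) :=
  LinearMap.toMatrix_baseChange B f b b

end General

section Adic

variable {A : Type} [CommRing A] [IsLocalRing A]

/-- Continuity of a matrix representation for the adic topology. -/
def MCont (r : Γ →* M2 A) : Prop :=
  ∀ n : ℕ, ∃ L : IntermediateField ℚ (AlgebraicClosure ℚ), FiniteDimensional ℚ L ∧
    ∀ σ : Γ, (∀ x ∈ L, σ x = x) → ∀ i j, r σ i j - (1 : M2 A) i j ∈ maximalIdeal A ^ n

omit [IsLocalRing A] in
lemma mem_smul_top_of_forall {V : Type} [AddCommGroup V] [Module A V] (b : Basis (Fin 2) A V)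
    (J : Ideal A) {v : V} (h : ∀ i, b.repr v i ∈ J) : v ∈ J • (⊤ : Submodule A V) := by
  rw [← b.sum_repr v]
  exact Submodule.sum_mem _ fun i _ => Submodule.smul_mem_smul (h i) Submodule.mem_top

omit [IsLocalRing A] in
lemma repr_mem_of_mem_smul_top {V : Type} [AddCommGroup V] [Module A V] (b : Basis (Fin 2) A V)
    (J : Ideal A) {v : V} (h : v ∈ J • (⊤ : Submodule A V)) (i : Fin 2) : b.repr v i ∈ J := by
  refine Submodule.smul_induction_on (p := fun v => b.repr v i ∈ J) h ?_ ?_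
  · intro a ha w _
    simpa using J.mul_mem_right _ ha
  · intro x y hx hy
    simpa using J.add_mem hx hy

/-- The adic representation attached to a continuous matrix representation. -/
def toRep (r : Γ →* M2 A) (hr : MCont r) : GaloisRepAdic A where
  V := Fin 2 → A
  finrank_eq := by simp
  ρ := (Matrix.toLinAlgEquiv' : M2 A ≃ₐ[A] _).toAlgHom.toRingHom.toMonoidHom.comp r
  isAdicContinuous := by
    intro n
    obtain ⟨L, hL, h⟩ := hr n
    refine ⟨L, hL, fun σ hσ v => mem_smul_top_of_forall (Pi.basisFun A (Fin 2)) _ fun i => ?_⟩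
    show ((r σ).mulVec v - v) i ∈ _
    rw [← Matrix.one_mulVec v, Matrix.mulVec_mulVec, mul_one, ← Matrix.sub_mulVec]
    simp only [Matrix.mulVec, dotProduct, Matrix.sub_apply]
    exact Ideal.sum_mem _ fun j _ => Ideal.mul_mem_right _ _ (h σ hσ i j)

lemma toRep_ρ (r : Γ →* M2 A) (hr : MCont r) (σ : Γ) :
    (toRep r hr).ρ σ = Matrix.toLin' (r σ) := rfl

/-- The standard basis of `toRep r hr`. -/
def stdBasis (r : Γ →* M2 A) (hr : MCont r) : Basis (Fin 2) A (toRep r hr).V :=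
  Pi.basisFun A (Fin 2)

lemma repMat_toRep (r : Γ →* M2 A) (hr : MCont r) :
    repMat (stdBasis r hr) (toRep r hr).ρ = r :=
  MonoidHom.ext fun σ => LinearMap.toMatrix'_toLin' (r σ)

/-- A basis of an adic representation. -/
def repBasis (ρ : GaloisRepAdic A) : Basis (Fin 2) A ρ.V :=
  Module.finBasisOfFinrankEq A ρ.V ρ.finrank_eq

lemma mcont_repMat (ρ : GaloisRepAdic A) (b : Basis (Fin 2) A ρ.V) : MCont (repMat b ρ.ρ) := by
  intro n
  obtain ⟨L, hL, h⟩ := ρ.isAdicContinuous n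
  refine ⟨L, hL, fun σ hσ i j => ?_⟩
  have := repr_mem_of_mem_smul_top b _ (h σ hσ (b j)) i
  simpa [repMat_apply, LinearMap.toMatrix_apply, Matrix.one_apply, Finsupp.single_apply,
    eq_comm] using this

lemma isEquiv_toRep (ρ : GaloisRepAdic A) (b : Basis (Fin 2) A ρ.V) :
    ρ.IsEquiv (toRep (repMat b ρ.ρ) (mcont_repMat ρ b)) := by
  obtain ⟨e, he⟩ := (exists_equiv_iff b (stdBasis (repMat b ρ.ρ) (mcont_repMat ρ b)) ρ.ρ
    (toRep (repMat b ρ.ρ) (mcont_repMat ρ b)).ρ).mpr ⟨1, isUnit_one, fun σ => by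
      rw [repMat_toRep, one_mul, mul_one]⟩
  exact ⟨⟨e, he⟩⟩

lemma isEquiv_toRep_iff (r r' : Γ →* M2 A) (hr : MCont r) (hr' : MCont r') :
    (toRep r hr).IsEquiv (toRep r' hr') ↔
      ∃ M : M2 A, IsUnit M ∧ ∀ σ, M * r σ = r' σ * M := by
  have h := exists_equiv_iff (stdBasis r hr) (stdBasis r' hr') (toRep r hr).ρ (toRep r' hr').ρ
  rw [repMat_toRep, repMat_toRep] at h
  exact ⟨fun ⟨e⟩ => h.mp ⟨e.toLinearEquiv, e.map_apply⟩,
    fun hM => let ⟨e, he⟩ := h.mpr hM; ⟨⟨e, he⟩⟩⟩

/-- Conjugation of a matrix representation by an invertible matrix. -/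
def conjRep (u : (M2 A)ˣ) (r : Γ →* M2 A) : Γ →* M2 A where
  toFun σ := (u : M2 A) * r σ * ((u⁻¹ : (M2 A)ˣ) : M2 A)
  map_one' := by simp
  map_mul' σ τ := by simp [mul_assoc]

omit [IsLocalRing A] in
lemma conjRep_apply (u : (M2 A)ˣ) (r : Γ →* M2 A) (σ : Γ) :
    conjRep u r σ = (u : M2 A) * r σ * ((u⁻¹ : (M2 A)ˣ) : M2 A) := rfl

omit [IsLocalRing A] in
lemma mul_mul_apply_mem (J : Ideal A) (X Y Z : M2 A) (h : ∀ i j, Y i j ∈ J) (i j : Fin 2) :
    (X * Y * Z) i j ∈ J := by
  simp only [Matrix.mul_apply]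
  exact Ideal.sum_mem _ fun l _ => Ideal.mul_mem_right _ _
    (Ideal.sum_mem _ fun m _ => Ideal.mul_mem_left _ _ (h m l))

lemma mcont_conjRep (u : (M2 A)ˣ) (r : Γ →* M2 A) (hr : MCont r) : MCont (conjRep u r) := by
  intro n
  obtain ⟨L, hL, h⟩ := hr n
  refine ⟨L, hL, fun σ hσ i j => ?_⟩
  have := mul_mul_apply_mem _ (u : M2 A) (r σ - 1) ((u⁻¹ : (M2 A)ˣ) : M2 A) (h σ hσ) i j
  rwa [mul_sub, sub_mul, mul_one, Units.mul_inv, ← conjRep_apply] at this

lemma isEquiv_conjRep (u : (M2 A)ˣ) (r : Γ →* M2 A) (hr : MCont r) :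
    (toRep r hr).IsEquiv (toRep (conjRep u r) (mcont_conjRep u r hr)) :=
  (isEquiv_toRep_iff _ _ _ _).mpr ⟨u, u.isUnit, fun σ => by
    rw [conjRep_apply, mul_assoc _ _ (u : M2 A), Units.inv_mul, mul_one]⟩

end Adic

section BaseChange

variable {A B : Type} [CommRing A] [CommRing B]

/-- Pushforward of a matrix representation along a ring homomorphism. -/
def mapRep (φ : A →+* B) (r : Γ →* M2 A) : Γ →* M2 B :=
  φ.mapMatrix.toMonoidHom.comp r

lemma mapRep_apply (φ : A →+* B) (r : Γ →* M2 A) (σ : Γ) : mapRep φ r σ = (r σ).map φ := rfl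

variable [IsLocalRing A] [IsLocalRing B]

lemma mcont_mapRep (φ : A →+* B) (hφ : IsLocalHom φ) (r : Γ →* M2 A) (hr : MCont r) :
    MCont (mapRep φ r) := by
  intro n
  obtain ⟨L, hL, h⟩ := hr n
  refine ⟨L, hL, fun σ hσ i j => ?_⟩
  haveI := hφ
  have hle : (maximalIdeal A ^ n).map φ ≤ maximalIdeal B ^ n := by
    rw [Ideal.map_pow]
    exact Ideal.pow_right_mono (Ideal.map_le_iff_le_comap.mpr fun a ha =>
      Ideal.mem_comap.mpr (map_nonunit φ a ha)) n
  have := hle (Ideal.mem_map_of_mem φ (h σ hσ i j))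
  rw [map_sub] at this
  have h1 : φ ((1 : M2 A) i j) = (1 : M2 B) i j := by
    rw [Matrix.one_apply, Matrix.one_apply]; split_ifs <;> simp
  rwa [h1] at this

lemma isEquiv_baseChangeAlong_toRep (φ : A →+* B) (hφ : IsLocalHom φ) (r : Γ →* M2 A)
    (hr : MCont r) :
    ((toRep r hr).baseChangeAlong φ hφ).IsEquiv
      (toRep (mapRep φ r) (mcont_mapRep φ hφ r hr)) := by
  letI : Algebra A B := φ.toAlgebra
  let ρ1 := (toRep r hr).baseChangeAlong φ hφ
  let b : Basis (Fin 2) B ρ1.V :=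
    Algebra.TensorProduct.basis B (stdBasis r hr)
  obtain ⟨e, he⟩ := (exists_equiv_iff b (stdBasis (mapRep φ r) (mcont_mapRep φ hφ r hr)) ρ1.ρ
    (toRep (mapRep φ r) (mcont_mapRep φ hφ r hr)).ρ).mpr ⟨1, isUnit_one, fun σ => by
      rw [repMat_toRep, one_mul, mul_one, repMat_apply, mapRep_apply]
      refine (toMatrix_baseChange_endo B
        (stdBasis r hr) ((toRep r hr).ρ σ)).trans ?_
      rw [← repMat_apply, repMat_toRep]
      rfl⟩
  exact ⟨⟨e, he⟩⟩

end BaseChange

section Residual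

variable {A : Type} [CommRing A] [IsLocalRing A] {k : Type} [Field k]

lemma residual_isEquiv_iff (r : Γ →* M2 A) (hr : MCont r) (ρbar : ResidualGaloisRep k)
    (b0 : Basis (Fin 2) k ρbar.V) (ι : k →+* ResidueField A) :
    (toRep r hr).residual.IsEquiv (ρbar.baseChangeAlong ι) ↔
      ∃ M : M2 (ResidueField A), IsUnit M ∧
        ∀ σ, M * (r σ).map (residue A) = (repMat b0 ρbar.ρ σ).map ι * M := by
  letI : Algebra k (ResidueField A) := ι.toAlgebra
  let bA : Basis (Fin 2) (ResidueField A) (toRep r hr).residual.V :=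
    Algebra.TensorProduct.basis (ResidueField A) (stdBasis r hr)
  let bk : Basis (Fin 2) (ResidueField A) (ρbar.baseChangeAlong ι).V :=
    Algebra.TensorProduct.basis (ResidueField A) b0
  have h := exists_equiv_iff bA bk (toRep r hr).residual.ρ (ρbar.baseChangeAlong ι).ρ
  have e1 : ∀ σ, repMat bA (toRep r hr).residual.ρ σ = (r σ).map (residue A) := by
    intro σ
    refine (toMatrix_baseChange_endo (ResidueField A)
      (stdBasis r hr) ((toRep r hr).ρ σ)).trans ?_
    rw [← repMat_apply, repMat_toRep]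
    rfl
  have e2 : ∀ σ, repMat bk (ρbar.baseChangeAlong ι).ρ σ = (repMat b0 ρbar.ρ σ).map ι :=
    fun σ => toMatrix_baseChange_endo (ResidueField A) b0 (ρbar.ρ σ)
  simp only [e1, e2] at h
  exact ⟨fun ⟨e⟩ => h.mp ⟨e.toLinearEquiv, e.map_apply⟩,
    fun hM => let ⟨e, he⟩ := h.mpr hM; ⟨⟨e, he⟩⟩⟩

end Residual

end Fermat.Agent.Deform
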