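import Mathlib
import Fermat.Agent.Deform.MatrixRep

/-!
Burnside's theorem for absolutely irreducible two-dimensional residual representations.
-/

set_option autoImplicit false

noncomputable section

namespace Fermat.Agent.Deform

open IsLocalRing Module
open scoped TensorProduct

lemma adjoin_range_eq_top_of_irreducible {K : Type} [Field K] [IsAlgClosed K]
    (ρ : ResidualGaloisRep K) (h : ρ.IsIrreducible) :
    Algebra.adjoin K (Set.range ρ.ρ) = ⊤ := by
  set S : Subalgebra K (Module.End K ρ.V) := Algebra.adjoin K (Set.range ρ.ρ) with hS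
  have hmem : ∀ σ, ρ.ρ σ ∈ S := fun σ => Algebra.subset_adjoin ⟨σ, rfl⟩
  haveI : Nontrivial ρ.V := Module.nontrivial_of_finrank_eq_succ ρ.finrank_eq
  haveI : Nontrivial (Submodule S ρ.V) := by
    obtain ⟨v, hv⟩ := exists_ne (0 : ρ.V)
    exact ⟨⊥, ⊤, fun e => hv ((Submodule.mem_bot S).mp (e ▸ Submodule.mem_top))⟩
  haveI : IsSimpleOrder (Submodule S ρ.V) := ⟨fun W => by
    rcases h (W.restrictScalars K) (fun σ x hx => W.smul_mem ⟨ρ.ρ σ, hmem σ⟩ hx) with e | e
    · exact Or.inl ((Submodule.restrictScalars_eq_bot_iff K S ρ.V).mp e)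
    · exact Or.inr ((Submodule.restrictScalars_eq_top_iff K S ρ.V).mp e)⟩
  haveI : IsSimpleModule S ρ.V := (isSimpleModule_iff S ρ.V).mpr inferInstance
  haveI : Module.Finite (Module.End S ρ.V) ρ.V :=
    Module.Finite.of_restrictScalars_finite K _ ρ.V
  rw [eq_top_iff]
  intro f _
  let F : Module.End (Module.End S ρ.V) ρ.V :=
    { toFun := f
      map_add' := map_add f
      map_smul' := fun g v => by
        obtain ⟨c, rfl⟩ := (IsSimpleModule.algebraMap_end_bijective_of_isAlgClosed
          (A := S) (V := ρ.V) K).2 g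
        simp }
  obtain ⟨a, ha⟩ := Module.Finite.toModuleEnd_moduleEnd_surjective (R := S) (M := ρ.V) F
  have : (a : Module.End K ρ.V) = f := LinearMap.ext fun v => DFunLike.congr_fun ha v
  exact this ▸ a.2

lemma span_range_repMat_eq_top {k : Type} [Field k] (ρbar : ResidualGaloisRep k)
    (habs : ρbar.IsAbsolutelyIrreducible) (b0 : Basis (Fin 2) k ρbar.V) :
    Submodule.span k (Set.range (repMat b0 ρbar.ρ)) = ⊤ := by
  classical
  by_contra hne
  obtain ⟨L, hL0, hL⟩ := Submodule.exists_dual_map_eq_bot_of_lt_top (lt_top_iff_ne_top.mpr hne)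
    inferInstance
  apply hL0
  set K := AlgebraicClosure k
  let ι : k →+* K := algebraMap k K
  let bK : Basis (Fin 2) K (ρbar.baseChange K).V := Algebra.TensorProduct.basis K b0
  let l : Fin 2 → Fin 2 → k := fun i j => L (Matrix.single i j 1)
  have hLexp : ∀ X : M2 k, L X = ∑ i, ∑ j, X i j * l i j := by
    intro X
    conv_lhs => rw [Matrix.matrix_eq_sum_single X]
    simp only [map_sum]
    refine Finset.sum_congr rfl fun i _ => Finset.sum_congr rfl fun j _ => ?_
    rw [← smul_eq_mul, ← map_smul, Matrix.smul_single, smul_eq_mul, mul_one]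
  let L' : Module.End K (ρbar.baseChange K).V →ₗ[K] K :=
    { toFun := fun f => ∑ i, ∑ j, LinearMap.toMatrix bK bK f i j * ι (l i j)
      map_add' := fun f g => by
        simp only [map_add, Matrix.add_apply, add_mul, Finset.sum_add_distrib]
      map_smul' := fun c f => by
        rw [LinearEquiv.map_smul]
        simp only [Matrix.smul_apply, smul_eq_mul, RingHom.id_apply, Fin.sum_univ_two]
        ring }
  have hkill : Submodule.span K (Set.range (ρbar.baseChange K).ρ) ≤ LinearMap.ker L' := by
    rw [Submodule.span_le]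
    rintro _ ⟨σ, rfl⟩
    have h0 : L (repMat b0 ρbar.ρ σ) = 0 := by
      have : L (repMat b0 ρbar.ρ σ) ∈ (Submodule.span k (Set.range (repMat b0 ρbar.ρ))).map L :=
        Submodule.mem_map_of_mem (Submodule.subset_span ⟨σ, rfl⟩)
      rwa [hL, Submodule.mem_bot] at this
    rw [hLexp] at h0
    show ∑ i, ∑ j, LinearMap.toMatrix bK bK ((ρbar.ρ σ).baseChange K) i j * ι (l i j) = 0
    rw [toMatrix_baseChange_endo K b0 (ρbar.ρ σ)]
    simpa [repMat_apply, map_sum, map_mul] using congrArg ι h0
  have htop : Submodule.span K (Set.range (ρbar.baseChange K).ρ) = ⊤ := by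
    have h := Algebra.adjoin_eq_span K (Set.range (ρbar.baseChange K).ρ)
    rw [adjoin_range_eq_top_of_irreducible _ habs, ← MonoidHom.coe_mrange,
      Submonoid.closure_eq, MonoidHom.coe_mrange, Algebra.top_toSubmodule] at h
    exact h.symm
  have hzero : L' = 0 := LinearMap.ker_eq_top.mp (top_le_iff.mp (htop ▸ hkill))
  have hl : ∀ i j, l i j = 0 := by
    intro i j
    have := DFunLike.congr_fun hzero (Matrix.toLin bK bK (Matrix.single i j 1))
    refine ι.injective ?_
    fin_cases i <;> fin_cases j <;>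
      simpa [L', LinearMap.toMatrix_toLin, Matrix.single_apply, ite_and] using this
  refine LinearMap.ext fun X => ?_
  simp [hLexp, hl]

lemma exists_finsupp_of_absIrr {k : Type} [Field k] (ρbar : ResidualGaloisRep k)
    (habs : ρbar.IsAbsolutelyIrreducible) (b0 : Basis (Fin 2) k ρbar.V) (X : M2 k) :
    ∃ c : Γ →₀ k, c.sum (fun g t => t • repMat b0 ρbar.ρ g) = X :=
  Finsupp.mem_span_range_iff_exists_finsupp.mp
    (span_range_repMat_eq_top ρbar habs b0 ▸ Submodule.mem_top)

end Fermat.Agent.Deform
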