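import Mathlib
import Fermat.Agent.Deform.MatrixRep
import Fermat.Agent.Deform.Burnside

/-!
Rigidified lifts: a normal form for the conjugacy classes of lifts of an absolutely irreducible
residual representation.
-/

set_option autoImplicit false

noncomputable section

namespace Fermat.Agent.Deform

open IsLocalRing Module

variable (𝒪 : Type) [CommRing 𝒪] [IsLocalRing 𝒪]

/-- A linear combination of matrices with coefficients in the coefficient ring. -/
def elt {A : Type} [CommRing A] [Algebra 𝒪 A] (c : Γ →₀ 𝒪) (X : Γ → M2 A) : M2 A :=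
  c.sum fun g t => t • X g

/-- The data rigidifying lifts of a residual representation. -/
structure Frame where
  r0 : Γ →* M2 (ResidueField 𝒪)
  R0 : Γ → M2 𝒪
  ca : Γ →₀ 𝒪
  cb : Γ →₀ 𝒪
  hR0 : ∀ σ, (R0 σ).map (residue 𝒪) = r0 σ
  ha : (elt 𝒪 ca R0).map (residue 𝒪) = Matrix.single 0 0 1
  hb : (elt 𝒪 cb R0).map (residue 𝒪) = Matrix.single 0 1 1

variable {𝒪}

lemma elt_map {A B : Type} [CommRing A] [CommRing B] [Algebra 𝒪 A] [Algebra 𝒪 B]
    (φ : A →ₐ[𝒪] B) (c : Γ →₀ 𝒪) (X : Γ → M2 A) :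
    (elt 𝒪 c X).map φ = elt 𝒪 c (fun g => (X g).map φ) := by
  show φ.mapMatrix (elt 𝒪 c X) = _
  rw [elt, map_finsuppSum]
  exact Finsupp.sum_congr fun g _ => map_smul φ.mapMatrix _ _

lemma elt_intertwine {A : Type} [CommRing A] [Algebra 𝒪 A] (c : Γ →₀ 𝒪) (X Y : Γ → M2 A)
    (M N : M2 A) (h : ∀ g, M * X g = Y g * N) : M * elt 𝒪 c X = elt 𝒪 c Y * N := by
  simp only [elt, Finsupp.sum, Finset.mul_sum, Finset.sum_mul, mul_smul_comm, smul_mul_assoc, h]

variable (F : Frame 𝒪)

/-- `r` lifts the residual representation. -/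
def Frame.Lifts {A : Type} [CommRing A] [IsLocalRing A] [Algebra 𝒪 A] (r : Γ →* M2 A) : Prop :=
  ∀ σ i j, r σ i j - algebraMap 𝒪 A (F.R0 σ i j) ∈ maximalIdeal A

/-- `r` is in normal form. -/
def Frame.Normal {A : Type} [CommRing A] [Algebra 𝒪 A] (r : Γ →* M2 A) : Prop :=
  elt 𝒪 F.ca r 0 1 = 0 ∧ elt 𝒪 F.ca r 1 0 = 0 ∧ elt 𝒪 F.cb r 0 1 = 1

variable {F} {A : Type} [CommRing A] [IsLocalRing A] [Algebra 𝒪 A]

omit [IsLocalRing A] in
lemma Frame.Normal.map {B : Type} [CommRing B] [Algebra 𝒪 B] {r : Γ →* M2 A} (h : F.Normal r)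
    (φ : A →ₐ[𝒪] B) : F.Normal (mapRep (φ : A →+* B) r) := by
  have key : ∀ c, elt 𝒪 c (mapRep (φ : A →+* B) r) = (elt 𝒪 c r).map φ :=
    fun c => (elt_map φ c r).symm
  refine ⟨?_, ?_, ?_⟩ <;> rw [key, Matrix.map_apply]
  · rw [h.1, map_zero]
  · rw [h.2.1, map_zero]
  · rw [h.2.2, map_one]

omit [IsLocalRing A] in
lemma Frame.Normal.of_map {B : Type} [CommRing B] [Algebra 𝒪 B] {r : Γ →* M2 A}
    {φ : A →ₐ[𝒪] B} (hφ : Function.Injective φ) (h : F.Normal (mapRep (φ : A →+* B) r)) :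
    F.Normal r := by
  have key : ∀ c, elt 𝒪 c (mapRep (φ : A →+* B) r) = (elt 𝒪 c r).map φ :=
    fun c => (elt_map φ c r).symm
  obtain ⟨h1, h2, h3⟩ := h
  rw [key, Matrix.map_apply] at h1 h2 h3
  exact ⟨hφ (h1.trans (map_zero φ).symm), hφ (h2.trans (map_zero φ).symm),
    hφ (h3.trans (map_one φ).symm)⟩

lemma Frame.Lifts.map {B : Type} [CommRing B] [IsLocalRing B] [Algebra 𝒪 B] {r : Γ →* M2 A}
    (h : F.Lifts r) (φ : A →ₐ[𝒪] B) (hφ : IsLocalHom (φ : A →+* B)) :
    F.Lifts (mapRep (φ : A →+* B) r) := by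
  intro σ i j
  have := map_nonunit (φ : A →+* B) _ (h σ i j)
  simpa [mapRep_apply] using this

lemma Frame.Lifts.residue_eq [IsLocalHom (algebraMap 𝒪 A)] {r : Γ →* M2 A} (h : F.Lifts r)
    (σ : Γ) : (r σ).map (residue A) = (F.r0 σ).map (ResidueField.map (algebraMap 𝒪 A)) := by
  ext i j
  rw [← F.hR0, Matrix.map_apply, Matrix.map_apply, Matrix.map_apply, ResidueField.map_residue,
    ← sub_eq_zero, ← map_sub, residue_eq_zero_iff]
  exact h σ i j

lemma Frame.lifts_of_residue_eq [IsLocalHom (algebraMap 𝒪 A)] {r : Γ →* M2 A}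
    (h : ∀ σ, (r σ).map (residue A) = (F.r0 σ).map (ResidueField.map (algebraMap 𝒪 A))) :
    F.Lifts r := by
  intro σ i j
  have := congrFun (congrFun (h σ) i) j
  rw [← F.hR0, Matrix.map_apply, Matrix.map_apply, Matrix.map_apply, ResidueField.map_residue,
    ← sub_eq_zero, ← map_sub, residue_eq_zero_iff] at this
  exact this

omit [IsLocalRing A] [IsLocalRing 𝒪] in
lemma elt_apply (c : Γ →₀ 𝒪) (X : Γ → M2 A) (i j : Fin 2) :
    elt 𝒪 c X i j = ∑ g ∈ c.support, algebraMap 𝒪 A (c g) * X g i j := by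
  simp only [elt, Finsupp.sum, Matrix.sum_apply]
  refine Finset.sum_congr rfl fun g _ => ?_
  rw [Matrix.smul_apply, Algebra.smul_def]

omit [IsLocalRing A] [IsLocalRing 𝒪] in
lemma map_single_one {B C : Type} [CommRing B] [CommRing C] (f : B →+* C) (i j : Fin 2) :
    (Matrix.single i j (1 : B)).map f = Matrix.single i j 1 := by
  ext x y
  simp [Matrix.single_apply, apply_ite f]

lemma elt_residue [IsLocalHom (algebraMap 𝒪 A)] {r : Γ →* M2 A} (h : F.Lifts r) (c : Γ →₀ 𝒪) :
    (elt 𝒪 c r).map (residue A) =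
      ((elt 𝒪 c F.R0).map (residue 𝒪)).map (ResidueField.map (algebraMap 𝒪 A)) := by
  ext i j
  simp only [Matrix.map_apply, elt_apply, map_sum, map_mul, ResidueField.map_residue,
    Algebra.algebraMap_self, RingHom.id_apply]
  refine Finset.sum_congr rfl fun g _ => ?_
  congr 1
  rw [← sub_eq_zero, ← map_sub, residue_eq_zero_iff]
  exact h g i j

lemma Frame.Lifts.conj_of_residue_one [IsLocalHom (algebraMap 𝒪 A)] {r : Γ →* M2 A}
    (h : F.Lifts r) (u : (M2 A)ˣ) (hu : (u : M2 A).map (residue A) = 1) :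
    F.Lifts (conjRep u r) := by
  refine F.lifts_of_residue_eq fun σ => ?_
  rw [← h.residue_eq, conjRep_apply]
  have hinv : (residue A).mapMatrix ((u⁻¹ : (M2 A)ˣ) : M2 A) = 1 := by
    have h2 := congrArg (residue A).mapMatrix u.mul_inv
    rwa [map_mul, RingHom.mapMatrix_apply, hu, one_mul, map_one] at h2
  show (residue A).mapMatrix _ = (residue A).mapMatrix (r σ)
  rw [map_mul, map_mul, hinv, RingHom.mapMatrix_apply, hu, one_mul, mul_one]

/-- Uniqueness of the normal form. -/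
theorem Frame.eq_of_conj [IsLocalHom (algebraMap 𝒪 A)] {r r' : Γ →* M2 A} (hl : F.Lifts r)
    (hl' : F.Lifts r') (hn : F.Normal r) (hn' : F.Normal r') {M : M2 A} (hM : IsUnit M)
    (hconj : ∀ σ, M * r σ = r' σ * M) : r = r' := by
  set f := (residue A).mapMatrix (m := Fin 2)
  set Mb := f M with hMb
  have ea : ∀ {s : Γ →* M2 A}, F.Lifts s →
      f (elt 𝒪 F.ca s) = Matrix.single 0 0 1 ∧ f (elt 𝒪 F.cb s) = Matrix.single 0 1 1 := by
    intro s hs
    constructor <;> rw [RingHom.mapMatrix_apply, elt_residue hs]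
    · rw [F.ha, map_single_one]
    · rw [F.hb, map_single_one]
  have hA := elt_intertwine F.ca r r' M M hconj
  have hB := elt_intertwine F.cb r r' M M hconj
  have hAb := congrArg f hA
  have hBb := congrArg f hB
  rw [map_mul, map_mul, (ea hl).1, (ea hl').1, ← hMb] at hAb
  rw [map_mul, map_mul, (ea hl).2, (ea hl').2, ← hMb] at hBb
  have m01 : Mb 0 1 = 0 := by
    have := congrFun (congrFun hAb 0) 1
    simpa [Matrix.mul_apply, Fin.sum_univ_two] using this.symm
  have m10 : Mb 1 0 = 0 := by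
    have := congrFun (congrFun hAb 1) 0
    simpa [Matrix.mul_apply, Fin.sum_univ_two] using this
  have mdiag : Mb 0 0 = Mb 1 1 := by
    have := congrFun (congrFun hBb 0) 1
    simpa [Matrix.mul_apply, Fin.sum_univ_two] using this
  have hdet : IsUnit Mb.det := (Matrix.isUnit_iff_isUnit_det _).mp (hM.map f)
  rw [Matrix.det_fin_two, m01, zero_mul, sub_zero, ← mdiag] at hdet
  have u00 : IsUnit (M 0 0) := IsUnit.of_map (residue A) _ (isUnit_of_mul_isUnit_left hdet)
  have u11 : IsUnit (M 1 1) :=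
    IsUnit.of_map (residue A) _ (by
      show IsUnit (Mb 1 1)
      rw [← mdiag]; exact isUnit_of_mul_isUnit_left hdet)
  obtain ⟨a1, a2, b1⟩ := hn
  obtain ⟨a1', a2', b1'⟩ := hn'
  set a := elt 𝒪 F.ca r
  set a' := elt 𝒪 F.ca r'
  have e00 := congrFun (congrFun hA 0) 0
  have e11 := congrFun (congrFun hA 1) 1
  have e01 := congrFun (congrFun hA 0) 1
  have e10 := congrFun (congrFun hA 1) 0
  simp only [Matrix.mul_apply, Fin.sum_univ_two, a1, a2, a1', a2', mul_zero, zero_mul, add_zero,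
    zero_add] at e00 e11 e01 e10
  have h00 : a 0 0 = a' 0 0 := u00.mul_left_cancel (by rw [e00, mul_comm])
  have h11 : a 1 1 = a' 1 1 := u11.mul_left_cancel (by rw [e11, mul_comm])
  have hdiff : IsUnit (a 0 0 - a 1 1) := by
    refine IsUnit.of_map (residue A) _ ?_
    rw [map_sub]
    have h0' : residue A (a 0 0) = 1 :=
      (congrFun (congrFun (ea hl).1 0) 0).trans (by simp)
    have h1' : residue A (a 1 1) = 0 :=
      (congrFun (congrFun (ea hl).1 1) 1).trans (by simp)
    rw [h0', h1', sub_zero]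
    exact isUnit_one
  have z01 : M 0 1 = 0 := by
    refine (IsUnit.mul_right_eq_zero hdiff).mp ?_
    rw [← h00] at e01
    linear_combination -e01
  have z10 : M 1 0 = 0 := by
    refine (IsUnit.mul_right_eq_zero hdiff).mp ?_
    rw [← h11] at e10
    linear_combination e10
  have eB := congrFun (congrFun hB 0) 1
  simp only [Matrix.mul_apply, Fin.sum_univ_two, z01, zero_mul, mul_zero, add_zero, zero_add,
    b1, b1', mul_one, one_mul] at eB
  refine MonoidHom.ext fun σ => ?_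
  have hMs : M = M 0 0 • (1 : M2 A) := by
    ext i j
    fin_cases i <;> fin_cases j <;> simp [z01, z10, eB]
  have h := hconj σ
  rw [hMs, smul_mul_assoc, mul_smul_comm, one_mul, mul_one] at h
  exact (u00.smul_left_cancel).mp h

omit [IsLocalRing 𝒪] in
/-- A monic quadratic with a simple root modulo the maximal ideal has a root. -/
lemma exists_root_quadratic [IsAdicComplete (maximalIdeal A) A] (T D : A)
    (hD : 1 - T + D ∈ maximalIdeal A) (hT : IsUnit (2 - T)) :
    ∃ l : A, l * l - T * l + D = 0 ∧ l - 1 ∈ maximalIdeal A := by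
  classical
  let f : Polynomial A := Polynomial.X ^ 2 - Polynomial.C T * Polynomial.X + Polynomial.C D
  have hf : f.Monic := by unfold f; monicity!
  have h1 : f.eval 1 ∈ maximalIdeal A := by simpa [f] using hD
  have h2 : IsUnit (Ideal.Quotient.mk (maximalIdeal A) (f.derivative.eval 1)) := by
    refine IsUnit.map _ ?_
    simpa [f, one_add_one_eq_two] using hT
  obtain ⟨l, hl, hl1⟩ := HenselianRing.is_henselian (I := maximalIdeal A) f hf 1 h1 h2
  exact ⟨l, by simpa [f, Polynomial.IsRoot, pow_two] using hl, hl1⟩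

/-- Existence of the normal form. -/
theorem Frame.exists_normal [IsAdicComplete (maximalIdeal A) A] [IsLocalHom (algebraMap 𝒪 A)]
    {r : Γ →* M2 A} (hl : F.Lifts r) :
    ∃ u : (M2 A)ˣ, F.Lifts (conjRep u r) ∧ F.Normal (conjRep u r) := by
  classical
  set a := elt 𝒪 F.ca r with hadef
  set b := elt 𝒪 F.cb r with hbdef
  have ea : a.map (residue A) = Matrix.single 0 0 1 := by
    rw [hadef, elt_residue hl, F.ha, map_single_one]
  have eb : b.map (residue A) = Matrix.single 0 1 1 := by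
    rw [hbdef, elt_residue hl, F.hb, map_single_one]
  have m00 : residue A (a 0 0) = 1 := by simpa using congrFun (congrFun ea 0) 0
  have m01 : residue A (a 0 1) = 0 := by simpa using congrFun (congrFun ea 0) 1
  have m10 : residue A (a 1 0) = 0 := by simpa using congrFun (congrFun ea 1) 0
  have m11 : residue A (a 1 1) = 0 := by simpa using congrFun (congrFun ea 1) 1
  set T := a 0 0 + a 1 1 with hTdef
  set D := a 0 0 * a 1 1 - a 0 1 * a 1 0 with hDdef
  obtain ⟨l, hl0, hl1⟩ := exists_root_quadratic T D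
    (by rw [← residue_eq_zero_iff]; simp [T, D, m00, m01, m10, m11])
    (by
      refine IsUnit.of_map (residue A) _ ?_
      have : residue A (2 - T) = 1 := by
        simp only [T, map_sub, map_add, m00, m11, map_ofNat, add_zero]
        norm_num
      rw [this]
      exact isUnit_one)
  have rl : residue A l = 1 := by
    rw [← sub_eq_zero, ← map_one (residue A), ← map_sub, residue_eq_zero_iff]
    exact hl1
  set l' := T - l with hl'def
  have us : IsUnit (a 1 1 - l) := IsUnit.of_map (residue A) _ (by simp [m11, rl])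
  have up : IsUnit (a 0 0 - l') :=
    IsUnit.of_map (residue A) _ (by simp [l', T, m00, m11, rl])
  obtain ⟨s, hs⟩ := us
  obtain ⟨q, hq⟩ := up
  set y : A := -(↑s⁻¹ * a 1 0) with hy
  set x : A := -(↑q⁻¹ * a 0 1) with hx
  have hyy : a 1 0 + (a 1 1 - l) * y = 0 := by
    rw [← hs, hy, mul_neg, ← mul_assoc, Units.mul_inv, one_mul, add_neg_cancel]
  have hxx : a 0 1 + (a 0 0 - l') * x = 0 := by
    rw [← hq, hx, mul_neg, ← mul_assoc, Units.mul_inv, one_mul, add_neg_cancel]
  have hy2 : a 0 0 + a 0 1 * y = l := by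
    have h3 : (a 1 1 - l) * (a 0 0 + a 0 1 * y - l) = 0 := by
      linear_combination hl0 + a 0 1 * hyy
    exact sub_eq_zero.mp ((IsUnit.mul_right_eq_zero (hs ▸ s.isUnit)).mp h3)
  have hx2 : a 1 0 * x + a 1 1 = l' := by
    have h3 : (a 0 0 - l') * (a 1 0 * x + a 1 1 - l') = 0 := by
      linear_combination hl0 + a 1 0 * hxx
    exact sub_eq_zero.mp ((IsUnit.mul_right_eq_zero (hq ▸ q.isUnit)).mp h3)
  set P : M2 A := !![1, x; y, 1] with hP
  have rx : residue A x = 0 := by simp [hx, m01]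
  have ry : residue A y = 0 := by simp [hy, m10]
  have hPres : P.map (residue A) = 1 := by
    ext i j
    fin_cases i <;> fin_cases j <;> simp [P, rx, ry]
  have hPu : IsUnit P := by
    rw [Matrix.isUnit_iff_isUnit_det]
    exact IsUnit.of_map (residue A) _ (by simp [Matrix.det_fin_two, P, rx])
  obtain ⟨uP, huP⟩ := hPu
  have haP : a * P = P * Matrix.diagonal ![l, l'] := by
    ext i j
    fin_cases i <;> fin_cases j <;> simp [P, Matrix.mul_apply, Fin.sum_univ_two]
    · exact hy2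
    · linear_combination hxx
    · linear_combination hyy
    · exact hx2
  have hiP : (residue A).mapMatrix ((uP⁻¹ : (M2 A)ˣ) : M2 A) = 1 := by
    have h2 := congrArg (residue A).mapMatrix uP.inv_mul
    rwa [map_mul, huP, RingHom.mapMatrix_apply, RingHom.mapMatrix_apply, hPres, mul_one,
      ← RingHom.mapMatrix_apply, map_one] at h2
  set b1 := ((uP⁻¹ : (M2 A)ˣ) : M2 A) * b * (uP : M2 A) with hb1
  have rb1 : residue A (b1 0 1) = 1 := by
    have h2 : (residue A).mapMatrix b1 = Matrix.single 0 1 1 := by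
      rw [hb1, map_mul, map_mul, hiP, one_mul, huP, RingHom.mapMatrix_apply,
        RingHom.mapMatrix_apply, hPres, mul_one, eb]
    simpa using congrFun (congrFun h2 0) 1
  obtain ⟨t, ht⟩ := IsUnit.of_map (residue A) (b1 0 1) (rb1 ▸ isUnit_one)
  set Dg : M2 A := Matrix.diagonal ![1, ↑t⁻¹] with hDg
  set Dg' : M2 A := Matrix.diagonal ![1, (t : A)] with hDg'
  have d1 : Dg * Dg' = 1 := by
    rw [hDg, hDg', Matrix.diagonal_mul_diagonal, ← Matrix.diagonal_one]
    congr 1
    ext i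
    fin_cases i <;> simp
  have d2 : Dg' * Dg = 1 := by
    rw [hDg, hDg', Matrix.diagonal_mul_diagonal, ← Matrix.diagonal_one]
    congr 1
    ext i
    fin_cases i <;> simp
  let uD : (M2 A)ˣ := ⟨Dg', Dg, d2, d1⟩
  let u : (M2 A)ˣ := uD * uP⁻¹
  have hu1 : (u : M2 A).map (residue A) = 1 := by
    rw [← RingHom.mapMatrix_apply, Units.val_mul, map_mul, hiP, mul_one, RingHom.mapMatrix_apply]
    ext i j
    fin_cases i <;> fin_cases j <;> simp [uD, Dg', ht, rb1]
  have hel : ∀ c, elt 𝒪 c (conjRep u r) =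
      (u : M2 A) * elt 𝒪 c r * ((u⁻¹ : (M2 A)ˣ) : M2 A) := by
    intro c
    have h2 := elt_intertwine c r (conjRep u r) (u : M2 A) (u : M2 A) (fun g => by
      rw [conjRep_apply, mul_assoc _ _ (u : M2 A), Units.inv_mul, mul_one])
    rw [h2, mul_assoc, Units.mul_inv, mul_one]
  have hca : elt 𝒪 F.ca (conjRep u r) = Dg' * Matrix.diagonal ![l, l'] * Dg := by
    rw [hel, ← hadef]
    show Dg' * ((uP⁻¹ : (M2 A)ˣ) : M2 A) * a * ((uP : M2 A) * Dg) = _
    calc Dg' * ((uP⁻¹ : (M2 A)ˣ) : M2 A) * a * ((uP : M2 A) * Dg)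
        = Dg' * ((uP⁻¹ : (M2 A)ˣ) : M2 A) * (a * (uP : M2 A)) * Dg := by simp only [mul_assoc]
      _ = Dg' * ((uP⁻¹ : (M2 A)ˣ) : M2 A) * ((uP : M2 A) * Matrix.diagonal ![l, l']) * Dg := by
          rw [huP, haP]
      _ = Dg' * Matrix.diagonal ![l, l'] * Dg := by
          rw [mul_assoc Dg', Units.inv_mul_cancel_left]
  have hcb : elt 𝒪 F.cb (conjRep u r) = Dg' * b1 * Dg := by
    rw [hel, ← hbdef, hb1]
    show Dg' * ((uP⁻¹ : (M2 A)ˣ) : M2 A) * b * ((uP : M2 A) * Dg) = _
    simp only [mul_assoc]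
  refine ⟨u, hl.conj_of_residue_one u hu1, ?_, ?_, ?_⟩
  · rw [hca]; simp [Dg, Dg', Matrix.diagonal_mul_diagonal]
  · rw [hca]; simp [Dg, Dg', Matrix.diagonal_mul_diagonal]
  · rw [hcb]
    simp [Dg, Dg', Matrix.diagonal_mul, Matrix.mul_diagonal, ← ht]

variable (F) in
/-- Any adic representation with the given residual representation has a normalised matrix form. -/
theorem Frame.exists_normal_form [IsAdicComplete (maximalIdeal A) A]
    [IsLocalHom (algebraMap 𝒪 A)] (ρbar : ResidualGaloisRep (ResidueField 𝒪))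
    (b0 : Basis (Fin 2) (ResidueField 𝒪) ρbar.V) (hr0 : F.r0 = repMat b0 ρbar.ρ)
    (ρA : GaloisRepAdic A)
    (hres : ρA.residual.IsEquiv
      (ρbar.baseChangeAlong (ResidueField.map (algebraMap 𝒪 A)))) :
    ∃ (r : Γ →* M2 A) (hr : MCont r), F.Lifts r ∧ F.Normal r ∧ ρA.IsEquiv (toRep r hr) := by
  set r := repMat (repBasis ρA) ρA.ρ
  have hr : MCont r := mcont_repMat ρA _
  obtain ⟨e⟩ := isEquiv_toRep ρA (repBasis ρA)
  have hres' : (toRep r hr).residual.IsEquiv
      (ρbar.baseChangeAlong (ResidueField.map (algebraMap 𝒪 A))) := by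
    obtain ⟨e'⟩ := hres
    exact ⟨(e.residual.symm).trans e'⟩
  obtain ⟨M, hMu, hM⟩ := (residual_isEquiv_iff r hr ρbar b0 _).mp hres'
  obtain ⟨N, hN⟩ : ∃ N : M2 A, N.map (residue A) = M :=
    ⟨M.map (Function.surjInv residue_surjective), by
      ext i j; simp [Function.surjInv_eq residue_surjective]⟩
  have hNu : IsUnit N := by
    rw [Matrix.isUnit_iff_isUnit_det]
    refine IsUnit.of_map (residue A) _ ?_
    rw [RingHom.map_det, RingHom.mapMatrix_apply, hN]
    exact (Matrix.isUnit_iff_isUnit_det _).mp hMu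
  obtain ⟨v, rfl⟩ := hNu
  have hlv : F.Lifts (conjRep v r) := by
    refine F.lifts_of_residue_eq fun σ => ?_
    have hinv : M * (residue A).mapMatrix ((v⁻¹ : (M2 A)ˣ) : M2 A) = 1 := by
      rw [← hN, ← RingHom.mapMatrix_apply, ← map_mul, Units.mul_inv, map_one]
    show (residue A).mapMatrix (conjRep v r σ) = _
    rw [conjRep_apply, map_mul, map_mul, RingHom.mapMatrix_apply, RingHom.mapMatrix_apply, hN, hM,
      hr0, mul_assoc, ← RingHom.mapMatrix_apply, hinv, mul_one]
  obtain ⟨u, hul, hun⟩ := Frame.exists_normal hlv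
  refine ⟨_, mcont_conjRep u _ (mcont_conjRep v r hr), hul, hun, ?_⟩
  obtain ⟨e1⟩ := isEquiv_conjRep v r hr
  obtain ⟨e2⟩ := isEquiv_conjRep u _ (mcont_conjRep v r hr)
  exact ⟨(e.trans e1).trans e2⟩

lemma Frame.residual_isEquiv [IsLocalHom (algebraMap 𝒪 A)]
    {ρbar : ResidualGaloisRep (ResidueField 𝒪)} {b0 : Basis (Fin 2) (ResidueField 𝒪) ρbar.V}
    (hr0 : F.r0 = repMat b0 ρbar.ρ) {r : Γ →* M2 A} (hr : MCont r) (hl : F.Lifts r) :
    (toRep r hr).residual.IsEquiv
      (ρbar.baseChangeAlong (ResidueField.map (algebraMap 𝒪 A))) :=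
  (residual_isEquiv_iff r hr ρbar b0 _).mpr ⟨1, isUnit_one, fun σ => by
    rw [one_mul, mul_one, hl.residue_eq, hr0]⟩

/-- A frame exists for an absolutely irreducible residual representation. -/
theorem exists_frame (ρbar : ResidualGaloisRep (ResidueField 𝒪))
    (habs : ρbar.IsAbsolutelyIrreducible) (b0 : Basis (Fin 2) (ResidueField 𝒪) ρbar.V) :
    ∃ F : Frame 𝒪, F.r0 = repMat b0 ρbar.ρ := by
  classical
  obtain ⟨sec, hsec⟩ : ∃ sec : ResidueField 𝒪 → 𝒪, sec 0 = 0 ∧ ∀ x, residue 𝒪 (sec x) = x :=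
    ⟨fun x => if x = 0 then 0 else Function.surjInv residue_surjective x, if_pos rfl, fun x => by
      by_cases h : x = 0 <;> simp [h, Function.surjInv_eq residue_surjective]⟩
  let R0 : Γ → M2 𝒪 := fun σ => (repMat b0 ρbar.ρ σ).map sec
  have hR0 : ∀ σ, (R0 σ).map (residue 𝒪) = repMat b0 ρbar.ρ σ := fun σ => by
    ext i j; simp [R0, hsec.2]
  have key : ∀ X, ∃ c : Γ →₀ 𝒪, (elt 𝒪 c R0).map (residue 𝒪) = X := by
    intro X
    obtain ⟨c, hc⟩ := exists_finsupp_of_absIrr ρbar habs b0 X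
    refine ⟨c.mapRange sec hsec.1, ?_⟩
    simp only [elt]
    rw [Finsupp.sum_mapRange_index (h := fun g t => t • R0 g) (fun g => zero_smul _ _),
      ← RingHom.mapMatrix_apply,
      map_finsuppSum, ← hc]
    refine Finsupp.sum_congr fun g _ => ?_
    rw [RingHom.mapMatrix_apply, ← hR0]
    ext i j
    simp [hsec.2]
  obtain ⟨ca, hca⟩ := key (Matrix.single 0 0 1)
  obtain ⟨cb, hcb⟩ := key (Matrix.single 0 1 1)
  exact ⟨⟨_, R0, ca, cb, hR0, hca, hcb⟩, rfl⟩

end Fermat.Agent.Deform
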