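import Mathlib
import Fermat.Prelude.Def_GaloisRep_DeformationCondition

/-!
Artinian test algebras over a coefficient ring with finite residue field.
-/

set_option autoImplicit false

noncomputable section

namespace Fermat.Agent.Deform

open IsLocalRing

variable {𝒪 : Type} [CommRing 𝒪] [IsLocalRing 𝒪] {A : Type} [CommRing A] [IsLocalRing A]
  [Algebra 𝒪 A]

lemma residueMap_surjective [IsLocalHom (algebraMap 𝒪 A)]
    (h : Function.Surjective (residue A ∘ algebraMap 𝒪 A)) :
    Function.Surjective (ResidueField.map (algebraMap 𝒪 A)) := by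
  intro x
  obtain ⟨y, rfl⟩ := h x
  exact ⟨residue 𝒪 y, ResidueField.map_residue _ _⟩

lemma finite_residueField [Finite (ResidueField 𝒪)] [IsLocalHom (algebraMap 𝒪 A)]
    (h : Function.Surjective (residue A ∘ algebraMap 𝒪 A)) : Finite (ResidueField A) :=
  Finite.of_surjective _ (residueMap_surjective h)

lemma finite_of_test [Finite (ResidueField 𝒪)] (h : GaloisRep.IsArtinianTestAlgebra 𝒪 A) :
    Finite A := by
  have := h.isLocalHom
  have := h.isArtinian
  have := finite_residueField h.residue_surjective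
  obtain ⟨n, hn⟩ := (isArtinianRing_iff_isNilpotent_maximalIdeal A).mp ‹_›
  have : Finite (A ⧸ (⊥ : Ideal A)) :=
    finite_quotient_iff.mpr ⟨n, by rw [hn, Ideal.zero_eq_bot]⟩
  exact Finite.of_equiv _ (RingEquiv.quotientBot A).toEquiv

lemma exists_maximalIdeal_pow_eq_bot (h : GaloisRep.IsArtinianTestAlgebra 𝒪 A) :
    ∃ n, maximalIdeal A ^ n = ⊥ := by
  have := h.isArtinian
  obtain ⟨n, hn⟩ := (isArtinianRing_iff_isNilpotent_maximalIdeal A).mp ‹_›
  exact ⟨n, hn⟩

/-- Any algebra map into a test algebra is local. -/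
lemma isLocalHom_algHom_of_test {B : Type} [CommRing B] [IsLocalRing B] [Algebra 𝒪 B]
    (hB : GaloisRep.IsArtinianTestAlgebra 𝒪 B) [IsLocalHom (algebraMap 𝒪 A)] (φ : A →ₐ[𝒪] B) :
    IsLocalHom (φ : A →+* B) := by
  have := hB.isLocalHom
  refine ⟨fun a ha => ?_⟩
  by_contra hna
  obtain ⟨t, ht⟩ := hB.residue_surjective (residue B (φ a))
  have hsub : φ a - algebraMap 𝒪 B t ∈ maximalIdeal B :=
    (residue_eq_zero_iff _).mp (by rw [map_sub, sub_eq_zero]; exact ht.symm)
  have htu : IsUnit t := by
    by_contra htu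
    exact (by simpa using Ideal.add_mem _ hsub (map_nonunit (algebraMap 𝒪 B) t htu) :
      φ a ∈ maximalIdeal B) ha
  have hu : IsUnit (a - algebraMap 𝒪 A t) := by
    by_contra hc
    exact (by simpa using Ideal.sub_mem (maximalIdeal A) hna hc :
      algebraMap 𝒪 A t ∈ maximalIdeal A) (htu.map _)
  have := hu.map φ
  rw [map_sub, AlgHom.commutes] at this
  exact hsub this

lemma isLocalRing_subalgebra [Finite A] (S : Subalgebra 𝒪 A) : IsLocalRing S := by
  have hu : ∀ x : S, IsUnit (x : A) → IsUnit x := by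
    intro x hx
    have hinj : Function.Injective (fun y : S => x * y) := fun y z h =>
      Subtype.ext (hx.mul_left_cancel (congrArg Subtype.val h))
    obtain ⟨y, hy⟩ := (Finite.injective_iff_surjective.mp hinj) 1
    exact IsUnit.of_mul_eq_one y hy
  refine IsLocalRing.of_isUnit_or_isUnit_one_sub_self fun x => ?_
  rcases isUnit_or_isUnit_one_sub_self (x : A) with h | h
  · exact Or.inl (hu x h)
  · exact Or.inr (hu (1 - x) h)

lemma isLocalHom_val [Finite A] (S : Subalgebra 𝒪 A) : IsLocalHom (S.val : S →+* A) := by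
  refine ⟨fun x hx => ?_⟩
  have hinj : Function.Injective (fun y : S => x * y) := fun y z h =>
    Subtype.ext ((show IsUnit (x : A) from hx).mul_left_cancel (congrArg Subtype.val h))
  obtain ⟨y, hy⟩ := (Finite.injective_iff_surjective.mp hinj) 1
  exact IsUnit.of_mul_eq_one y hy

omit [IsLocalRing 𝒪] in
lemma isArtinianRing_of_finite (B : Type) [CommRing B] [Finite B] : IsArtinianRing B := inferInstance

/-- A subalgebra of a test algebra is a test algebra. -/
lemma isTest_subalgebra [Finite (ResidueField 𝒪)] (h : GaloisRep.IsArtinianTestAlgebra 𝒪 A)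
    (S : Subalgebra 𝒪 A) [IsLocalRing S] : GaloisRep.IsArtinianTestAlgebra 𝒪 S := by
  have := finite_of_test h
  have := h.isLocalHom
  have hv := isLocalHom_val S
  refine ⟨⟨fun t ht => ?_⟩, fun x => ?_, inferInstance⟩
  · exact IsUnit.of_map (algebraMap 𝒪 A) t (ht.map S.val)
  · obtain ⟨y, rfl⟩ := residue_surjective x
    obtain ⟨t, ht⟩ := h.residue_surjective (residue A (y : A))
    refine ⟨t, ?_⟩
    rw [Function.comp_apply, ← sub_eq_zero, ← map_sub, residue_eq_zero_iff]
    have h2 : algebraMap 𝒪 A t - (y : A) ∈ maximalIdeal A :=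
      (residue_eq_zero_iff _).mp (by rw [map_sub, sub_eq_zero]; exact ht)
    intro hu
    exact h2 (hu.map S.val)

/-- A nontrivial quotient of a local algebra which contains a power of the maximal ideal. -/
lemma isTest_of_surjective {B : Type} [CommRing B] [IsLocalRing B] [Algebra 𝒪 B]
    [IsLocalHom (algebraMap 𝒪 A)] (hA : Function.Surjective (residue A ∘ algebraMap 𝒪 A))
    (φ : A →ₐ[𝒪] B) (hφ : Function.Surjective φ) [IsArtinianRing B] :
    GaloisRep.IsArtinianTestAlgebra 𝒪 B := by
  have hloc : IsLocalHom (φ : A →+* B) := IsLocalHom.of_surjective _ hφ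
  refine ⟨⟨fun t ht => ?_⟩, fun x => ?_, inferInstance⟩
  · rw [← φ.commutes] at ht
    exact IsUnit.of_map (algebraMap 𝒪 A) t (IsUnit.of_map (φ : A →+* B) _ ht)
  · obtain ⟨y, rfl⟩ := residue_surjective x
    obtain ⟨z, rfl⟩ := hφ y
    obtain ⟨t, ht⟩ := hA (residue A z)
    refine ⟨t, ?_⟩
    have h2 : algebraMap 𝒪 A t - z ∈ maximalIdeal A :=
      (residue_eq_zero_iff _).mp (by rw [map_sub, sub_eq_zero]; exact ht)
    rw [Function.comp_apply, ← sub_eq_zero, ← map_sub, residue_eq_zero_iff, ← φ.commutes,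
      ← map_sub]
    exact map_nonunit (φ : A →+* B) _ h2

end Fermat.Agent.Deform
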