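import Mathlib
import Fermat.Agent.Deform.TestAlgebra
import Fermat.Agent.Deform.NormalForm

/-!
Normalised lifts to Artinian test algebras and their fibre products.
-/

set_option autoImplicit false

noncomputable section

namespace Fermat.Agent.Deform

open IsLocalRing Module

variable {𝒪 : Type} [CommRing 𝒪] [IsLocalRing 𝒪]

/-- The collection of all entries of a matrix representation. -/
def entry {A : Type} [CommRing A] (r : Γ →* M2 A) (x : Γ × Fin 2 × Fin 2) : A :=
  r x.1 x.2.1 x.2.2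

/-- A normalised lift of type `𝒟` to an Artinian test algebra, generated by its entries. -/
structure Pt (F : Frame 𝒪)
    (𝒟 : ∀ ⦃A : Type⦄ [CommRing A] [IsLocalRing A] [Algebra 𝒪 A], GaloisRepAdic A → Prop) :
    Type 1 where
  A : Type
  [commRing : CommRing A]
  [isLocalRing : IsLocalRing A]
  [algebra : Algebra 𝒪 A]
  test : GaloisRep.IsArtinianTestAlgebra 𝒪 A
  r : Γ →* M2 A
  hr : MCont r
  typ : 𝒟 (toRep r hr)
  lifts : F.Lifts r
  normal : F.Normal r
  gen : Algebra.adjoin 𝒪 (Set.range (entry r)) = ⊤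

attribute [instance] Pt.commRing Pt.isLocalRing Pt.algebra

variable {F : Frame 𝒪}
  {𝒟 : ∀ ⦃A : Type⦄ [CommRing A] [IsLocalRing A] [Algebra 𝒪 A], GaloisRepAdic A → Prop}
  (h𝒟 : GaloisRep.IsDeformationCondition 𝒪 𝒟)

include h𝒟

lemma typ_congr {A : Type} [CommRing A] [IsLocalRing A] [Algebra 𝒪 A]
    (hA : GaloisRep.IsArtinianTestAlgebra 𝒪 A) {ρ ρ' : GaloisRepAdic A} (h : ρ.IsEquiv ρ') :
    𝒟 ρ ↔ 𝒟 ρ' :=
  ⟨h𝒟.of_isEquiv hA h, h𝒟.of_isEquiv hA (let ⟨e⟩ := h; ⟨e.symm⟩)⟩

lemma typ_map {A B : Type} [CommRing A] [IsLocalRing A] [Algebra 𝒪 A] [CommRing B] [IsLocalRing B]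
    [Algebra 𝒪 B] (hA : GaloisRep.IsArtinianTestAlgebra 𝒪 A)
    (hB : GaloisRep.IsArtinianTestAlgebra 𝒪 B) (φ : A →ₐ[𝒪] B) {r : Γ →* M2 A} {hr : MCont r}
    (hr' : MCont (mapRep (φ : A →+* B) r)) (h : 𝒟 (toRep r hr)) :
    𝒟 (toRep (mapRep (φ : A →+* B) r) hr') := by
  have := hA.isLocalHom
  have hφ := isLocalHom_algHom_of_test hB φ
  exact (typ_congr h𝒟 hB (isEquiv_baseChangeAlong_toRep _ hφ r hr)).mp
    (h𝒟.baseChangeAlong hA hB φ hφ h)

lemma typ_of_map {A B : Type} [CommRing A] [IsLocalRing A] [Algebra 𝒪 A] [CommRing B]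
    [IsLocalRing B] [Algebra 𝒪 B] (hA : GaloisRep.IsArtinianTestAlgebra 𝒪 A)
    (hB : GaloisRep.IsArtinianTestAlgebra 𝒪 B) (φ : A →ₐ[𝒪] B) (hinj : Function.Injective φ)
    {r : Γ →* M2 A} (hr : MCont r) {hr' : MCont (mapRep (φ : A →+* B) r)}
    (h : 𝒟 (toRep (mapRep (φ : A →+* B) r) hr')) : 𝒟 (toRep r hr) := by
  have := hA.isLocalHom
  have hφ := isLocalHom_algHom_of_test hB φ
  exact h𝒟.of_baseChangeAlong_injective hA hB φ hφ hinj
    ((typ_congr h𝒟 hB (isEquiv_baseChangeAlong_toRep _ hφ r hr)).mpr h)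

omit h𝒟 in
lemma mcont_of_map_injective {A B : Type} [CommRing A] [IsLocalRing A] [CommRing B]
    [IsLocalRing B] {n : ℕ} (hn : maximalIdeal B ^ n = ⊥) (φ : A →+* B)
    (hinj : Function.Injective φ) (r : Γ →* M2 A) (hr : MCont (mapRep φ r)) : MCont r := by
  intro m
  obtain ⟨L, hL, h⟩ := hr n
  refine ⟨L, hL, fun σ hσ i j => ?_⟩
  have h0 := h σ hσ i j
  rw [hn, Ideal.mem_bot, mapRep_apply, Matrix.map_apply,
    show (1 : M2 B) i j = φ ((1 : M2 A) i j) by
      rw [Matrix.one_apply, Matrix.one_apply]; split_ifs <;> simp,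
    ← map_sub, map_eq_zero_iff φ hinj] at h0
  rw [h0]
  exact Submodule.zero_mem _

/-- Restrict a normalised lift to the algebra generated by its entries. -/
lemma exists_pt [Finite (ResidueField 𝒪)] {A : Type} [CommRing A] [IsLocalRing A] [Algebra 𝒪 A]
    (hA : GaloisRep.IsArtinianTestAlgebra 𝒪 A) (r : Γ →* M2 A) (hr : MCont r)
    (ht : 𝒟 (toRep r hr)) (hl : F.Lifts r) (hn : F.Normal r) :
    ∃ (pt : Pt F 𝒟) (ι : pt.A →ₐ[𝒪] A),
      Function.Injective ι ∧ mapRep (ι : pt.A →+* A) pt.r = r := by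
  classical
  have := finite_of_test hA
  set S := Algebra.adjoin 𝒪 (Set.range (entry r))
  let rS : Γ →* M2 S :=
    { toFun := fun σ => Matrix.of fun i j =>
        ⟨r σ i j, Algebra.subset_adjoin ⟨(σ, i, j), rfl⟩⟩
      map_one' := by
        refine Matrix.ext fun i j => Subtype.ext ?_
        show r 1 i j = (((1 : M2 S) i j : S) : A)
        rw [map_one, Matrix.one_apply, Matrix.one_apply]
        split_ifs <;> rfl
      map_mul' := fun σ τ => by
        ext i j
        simp [map_mul, Matrix.mul_apply] }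
  haveI := isLocalRing_subalgebra S
  have hS := isTest_subalgebra hA S
  have heq : mapRep (S.val : S →+* A) rS = r := by
    ext σ i j; rfl
  obtain ⟨n, hn0⟩ := exists_maximalIdeal_pow_eq_bot hA
  have hrS : MCont rS :=
    mcont_of_map_injective hn0 (S.val : S →+* A) Subtype.val_injective rS (heq.symm ▸ hr)
  have hv := isLocalHom_val S
  refine ⟨⟨S, hS, rS, hrS, ?_, fun σ i j hu => hl σ i j ?_,
    Frame.Normal.of_map (φ := S.val) Subtype.val_injective (heq.symm ▸ hn), ?_⟩,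
    S.val, Subtype.val_injective, heq⟩
  · refine typ_of_map h𝒟 hS hA S.val Subtype.val_injective hrS
      (hr' := by rw [heq]; exact hr) ?_
    simp only [heq]; exact ht
  · exact hu.map S.val
  · rw [eq_top_iff, ← Algebra.adjoin_adjoin_coe_preimage (R := 𝒪) (s := Set.range (entry r))]
    refine Algebra.adjoin_mono ?_
    rintro y ⟨x, hx⟩
    exact ⟨x, Subtype.ext hx⟩

omit h𝒟 in
lemma isTest_residueField : GaloisRep.IsArtinianTestAlgebra 𝒪 (ResidueField 𝒪) := by
  refine ⟨⟨fun t ht => ?_⟩, fun x => ?_, inferInstance⟩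
  · exact IsUnit.of_map (residue 𝒪) t ht
  · obtain ⟨y, rfl⟩ := residue_surjective x
    obtain ⟨t, rfl⟩ := residue_surjective y
    exact ⟨t, rfl⟩

omit h𝒟 in
lemma exists_residueHom {A : Type} [CommRing A] [IsLocalRing A] [Algebra 𝒪 A]
    [IsLocalHom (algebraMap 𝒪 A)] (hA : Function.Surjective (residue A ∘ algebraMap 𝒪 A)) :
    ∃ ψ : A →ₐ[𝒪] ResidueField 𝒪, ∀ a, ψ a = 0 ↔ a ∈ maximalIdeal A := by
  let e := RingEquiv.ofBijective (ResidueField.map (algebraMap 𝒪 A))
    ⟨RingHom.injective _, residueMap_surjective hA⟩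
  refine ⟨{ toRingHom := (e.symm : ResidueField A →+* ResidueField 𝒪).comp (residue A)
            commutes' := fun t => e.symm_apply_eq.mpr (ResidueField.map_residue _ t).symm },
    fun a => ?_⟩
  show e.symm (residue A a) = 0 ↔ _
  rw [map_eq_zero_iff _ e.symm.injective, residue_eq_zero_iff]

/-- The residual representation is a normalised lift. -/
lemma exists_residual_pt [Finite (ResidueField 𝒪)] (ρbar : ResidualGaloisRep (ResidueField 𝒪))
    (b0 : Basis (Fin 2) (ResidueField 𝒪) ρbar.V) (hr0 : F.r0 = repMat b0 ρbar.ρ)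
    (hbar : 𝒟 (GaloisRepAdic.ofResidualGaloisRep ρbar)) : Nonempty (Pt F 𝒟) := by
  let b0' : Basis (Fin 2) (ResidueField 𝒪) (GaloisRepAdic.ofResidualGaloisRep ρbar).V := b0
  have e := isEquiv_toRep (GaloisRepAdic.ofResidualGaloisRep ρbar) b0'
  have hk := isTest_residueField (𝒪 := 𝒪)
  have ht := (typ_congr h𝒟 hk e).mp hbar
  have hR : ∀ σ, repMat b0'
      (GaloisRepAdic.ofResidualGaloisRep ρbar).ρ σ = (F.R0 σ).map (residue 𝒪) := fun σ => by
    rw [F.hR0, hr0]; rfl
  obtain ⟨pt, -⟩ := exists_pt (F := F) h𝒟 hk _ _ ht (fun σ i j => by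
    rw [hR, Matrix.map_apply]
    show residue 𝒪 (F.R0 σ i j) - residue 𝒪 (F.R0 σ i j) ∈ _
    rw [sub_self]; exact Submodule.zero_mem _) (by
    have key : ∀ c, elt 𝒪 c (repMat b0'
        (GaloisRepAdic.ofResidualGaloisRep ρbar).ρ) = (elt 𝒪 c F.R0).map (residue 𝒪) := by
      intro c
      refine (congrArg (elt 𝒪 c) (funext hR)).trans (elt_map (Algebra.ofId 𝒪 (ResidueField 𝒪)) c F.R0).symm
    refine ⟨?_, ?_, ?_⟩ <;> rw [key]
    · rw [F.ha]; simp
    · rw [F.ha]; simp
    · rw [F.hb]; simp)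
  exact ⟨pt⟩

/-- Two normalised lifts are dominated by a third one. -/
lemma exists_dominate [Finite (ResidueField 𝒪)] (p q : Pt F 𝒟) :
    ∃ (s : Pt F 𝒟) (f : s.A →ₐ[𝒪] p.A) (g : s.A →ₐ[𝒪] q.A),
      mapRep (f : s.A →+* p.A) s.r = p.r ∧ mapRep (g : s.A →+* q.A) s.r = q.r := by
  classical
  have := p.test.isLocalHom
  have := q.test.isLocalHom
  obtain ⟨ψp, hψp⟩ := exists_residueHom p.test.residue_surjective
  obtain ⟨ψq, hψq⟩ := exists_residueHom q.test.residue_surjective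
  let P : Subalgebra 𝒪 (p.A × q.A) :=
    AlgHom.equalizer (ψp.comp (AlgHom.fst 𝒪 p.A q.A)) (ψq.comp (AlgHom.snd 𝒪 p.A q.A))
  let pA : P →ₐ[𝒪] p.A := (AlgHom.fst 𝒪 p.A q.A).comp P.val
  let pB : P →ₐ[𝒪] q.A := (AlgHom.snd 𝒪 p.A q.A).comp P.val
  have hmem : ∀ x : P, ψp (pA x) = ψq (pB x) := fun x => x.2
  have := finite_of_test p.test
  have := finite_of_test q.test
  have hu : ∀ x : P, IsUnit (pA x) → IsUnit (pB x) → IsUnit x := by
    intro x h1 h2
    have hinj : Function.Injective (fun y : P => x * y) := fun y z h => by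
      refine Subtype.ext (Prod.ext (h1.mul_left_cancel ?_) (h2.mul_left_cancel ?_))
      · exact congrArg (fun w : P => (w : p.A × q.A).1) h
      · exact congrArg (fun w : P => (w : p.A × q.A).2) h
    obtain ⟨y, hy⟩ := (Finite.injective_iff_surjective.mp hinj) 1
    exact IsUnit.of_mul_eq_one y hy
  have hiff : ∀ x : P, IsUnit (pA x) ↔ IsUnit (pB x) := fun x => by
    refine not_iff_not.mp ?_
    show pA x ∈ maximalIdeal p.A ↔ pB x ∈ maximalIdeal q.A
    rw [← hψp, ← hψq, hmem x]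
  haveI : Nontrivial P := pA.toRingHom.domain_nontrivial
  haveI : IsLocalRing P := IsLocalRing.of_isUnit_or_isUnit_one_sub_self fun x => by
    rcases isUnit_or_isUnit_one_sub_self (pA x) with h | h
    · exact Or.inl (hu x h ((hiff x).mp h))
    · have h1 : IsUnit (pA (1 - x)) := by rw [map_sub, map_one]; exact h
      exact Or.inr (hu _ h1 ((hiff _).mp h1))
  have hP : GaloisRep.IsArtinianTestAlgebra 𝒪 P := by
    refine ⟨⟨fun t ht => IsUnit.of_map (algebraMap 𝒪 p.A) t ?_⟩, fun x => ?_, inferInstance⟩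
    · simpa using ht.map pA
    · obtain ⟨y, rfl⟩ := residue_surjective x
      obtain ⟨t, ht⟩ := p.test.residue_surjective (residue p.A (pA y))
      refine ⟨t, ?_⟩
      rw [Function.comp_apply, ← sub_eq_zero, ← map_sub, residue_eq_zero_iff]
      intro hc
      rw [Function.comp_apply, ← sub_eq_zero, ← map_sub, residue_eq_zero_iff] at ht
      exact ht (by simpa using hc.map pA)
  have hψr : ∀ (s : Pt F 𝒟) (ψ : s.A →ₐ[𝒪] ResidueField 𝒪),
      (∀ a, ψ a = 0 ↔ a ∈ maximalIdeal s.A) → ∀ σ i j,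
      ψ (s.r σ i j) = residue 𝒪 (F.R0 σ i j) := by
    intro s ψ hψ σ i j
    have := (hψ _).mpr (s.lifts σ i j)
    rwa [map_sub, AlgHom.commutes, sub_eq_zero] at this
  let rP : Γ →* M2 P :=
    { toFun := fun σ => Matrix.of fun i j => ⟨(p.r σ i j, q.r σ i j), by
        show ψp (p.r σ i j) = ψq (q.r σ i j)
        rw [hψr p ψp hψp, hψr q ψq hψq]⟩
      map_one' := by
        refine Matrix.ext fun i j => Subtype.ext ?_
        show (p.r 1 i j, q.r 1 i j) = (((1 : M2 P) i j : P) : p.A × q.A)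
        rw [map_one, map_one, Matrix.one_apply, Matrix.one_apply, Matrix.one_apply]
        split_ifs <;> rfl
      map_mul' := fun σ τ => by
        refine Matrix.ext fun i j => Subtype.ext ?_
        simp [map_mul, Matrix.mul_apply, Fin.sum_univ_two] }
  have hA1 : mapRep (pA : P →+* p.A) rP = p.r := by ext σ i j; rfl
  have hB1 : mapRep (pB : P →+* q.A) rP = q.r := by ext σ i j; rfl
  have hinj : Function.Injective fun x : P => (pA x, pB x) := fun x y h => Subtype.ext h
  have hcont : MCont rP := by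
    intro m
    obtain ⟨np, hnp⟩ := exists_maximalIdeal_pow_eq_bot p.test
    obtain ⟨nq, hnq⟩ := exists_maximalIdeal_pow_eq_bot q.test
    obtain ⟨L, hL, h⟩ := p.hr np
    obtain ⟨L', hL', h'⟩ := q.hr nq
    refine ⟨L ⊔ L', inferInstance, fun σ hσ i j => ?_⟩
    have e1 := h σ (fun x hx => hσ x (le_sup_left (a := L) hx)) i j
    have e2 := h' σ (fun x hx => hσ x (le_sup_right (a := L) hx)) i j
    rw [hnp, Ideal.mem_bot] at e1
    rw [hnq, Ideal.mem_bot] at e2
    have : rP σ i j - (1 : M2 P) i j = 0 := by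
      refine hinj (Prod.ext ?_ ?_)
      · simp only [map_sub, map_zero]
        rw [show pA ((1 : M2 P) i j) = (1 : M2 p.A) i j by
          rw [Matrix.one_apply, Matrix.one_apply]; split_ifs <;> simp]
        exact e1
      · simp only [map_sub, map_zero]
        rw [show pB ((1 : M2 P) i j) = (1 : M2 q.A) i j by
          rw [Matrix.one_apply, Matrix.one_apply]; split_ifs <;> simp]
        exact e2
    rw [this]
    exact Submodule.zero_mem _
  have := hP.isLocalHom
  have hlA := isLocalHom_algHom_of_test p.test pA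
  have hlB := isLocalHom_algHom_of_test q.test pB
  have htyp : 𝒟 (toRep rP hcont) := by
    refine h𝒟.of_fibreProduct p.test q.test isTest_residueField hP ψp ψq pA pB hlA hlB
      (AlgHom.ext hmem) hinj (fun a b h => ⟨⟨(a, b), h⟩, rfl, rfl⟩) ?_ ?_
    · refine (typ_congr h𝒟 p.test (isEquiv_baseChangeAlong_toRep _ hlA rP hcont)).mpr ?_
      simp only [hA1]; exact p.typ
    · refine (typ_congr h𝒟 q.test (isEquiv_baseChangeAlong_toRep _ hlB rP hcont)).mpr ?_
      simp only [hB1]; exact q.typ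
  have hlift : F.Lifts rP := fun σ i j hu => p.lifts σ i j (by
    have h2 := hu.map pA
    rw [map_sub, AlgHom.commutes] at h2
    exact h2)
  have hnorm : F.Normal rP := by
    have h1 := p.normal
    have h2 := q.normal
    rw [← hA1] at h1
    rw [← hB1] at h2
    have k1 : ∀ c, elt 𝒪 c (mapRep (pA : P →+* p.A) rP) = (elt 𝒪 c rP).map pA :=
      fun c => (elt_map pA c rP).symm
    have k2 : ∀ c, elt 𝒪 c (mapRep (pB : P →+* q.A) rP) = (elt 𝒪 c rP).map pB :=
      fun c => (elt_map pB c rP).symm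
    obtain ⟨a1, a2, a3⟩ := h1
    obtain ⟨c1, c2, c3⟩ := h2
    rw [k1, Matrix.map_apply] at a1 a2 a3
    rw [k2, Matrix.map_apply] at c1 c2 c3
    refine ⟨hinj ?_, hinj ?_, hinj ?_⟩
    · exact (Prod.ext (a1.trans (map_zero pA).symm) (c1.trans (map_zero pB).symm))
    · exact (Prod.ext (a2.trans (map_zero pA).symm) (c2.trans (map_zero pB).symm))
    · exact (Prod.ext (a3.trans (map_one pA).symm) (c3.trans (map_one pB).symm))
  obtain ⟨s, ι, hι, hs⟩ := exists_pt (F := F) h𝒟 hP rP hcont htyp hlift hnorm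
  refine ⟨s, pA.comp ι, pB.comp ι, ?_, ?_⟩
  · rw [← hA1, ← hs]; rfl
  · rw [← hB1, ← hs]; rfl

end Fermat.Agent.Deform
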