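import Mathlib

/-!
Evaluation of multivariate power series in an adically complete algebra, defined by truncation.
-/

set_option autoImplicit false

noncomputable section

namespace Fermat.Agent.Deform

open MvPowerSeries

/-- In a Hausdorff ring, an element of every power of the ideal is zero. -/
lemma eq_of_forall_sub_mem_pow {A : Type} [CommRing A] (I : Ideal A) [IsHausdorff I A] {x y : A}
    (h : ∀ n, x - y ∈ I ^ n) : x = y := by
  refine sub_eq_zero.mp (IsHausdorff.haus (inferInstance : IsHausdorff I A) _ fun n => ?_)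
  rw [SModEq.zero, smul_eq_mul, Ideal.mul_top]
  exact h n

section

variable {𝒪 : Type} [CommRing 𝒪] {σ : Type} [Finite σ]

/-- The ideal of power series generated by the variables. -/
def varIdeal (σ 𝒪 : Type) [CommRing 𝒪] : Ideal (MvPowerSeries σ 𝒪) :=
  Ideal.span (Set.range MvPowerSeries.X)

omit [Finite σ] in
lemma map_idealOfVars_pow (n : ℕ) :
    (MvPolynomial.idealOfVars σ 𝒪 ^ n).map (algebraMap (MvPolynomial σ 𝒪) (MvPowerSeries σ 𝒪)) =
      varIdeal σ 𝒪 ^ n := by
  rw [Ideal.map_pow]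
  congr 1
  rw [MvPolynomial.idealOfVars, varIdeal, Ideal.map_span, ← Set.range_comp]
  congr 2
  ext1 i
  simp [MvPowerSeries.algebraMap_apply']

lemma sub_truncTotal_mem (n : ℕ) (p : MvPowerSeries σ 𝒪) :
    p - algebraMap (MvPolynomial σ 𝒪) (MvPowerSeries σ 𝒪) (truncTotal n p) ∈ varIdeal σ 𝒪 ^ n := by
  set x := p - algebraMap (MvPolynomial σ 𝒪) (MvPowerSeries σ 𝒪) (truncTotal n p)
  have hx : toAdicCompletionAlgEquiv σ 𝒪 x ∈
      (AdicCompletion.eval (MvPolynomial.idealOfVars σ 𝒪) (MvPolynomial σ 𝒪) n).ker := by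
    rw [LinearMap.mem_ker, map_sub, AlgEquiv.commutes, map_sub, sub_eq_zero,
      AdicCompletion.algebraMap_apply, Algebra.algebraMap_self, RingHom.id_apply,
      AdicCompletion.eval_of, AdicCompletion.eval_apply, toAdicCompletionAlgEquiv_apply,
      toAdicCompletion_apply_eq_mk_truncTotal (σ := σ) (R := 𝒪)]
    rfl
  rw [← AdicCompletion.pow_smul_top_eq_ker_eval (MvPolynomial.idealOfVars_fg σ 𝒪),
    Ideal.smul_top_eq_map, Submodule.restrictScalars_mem] at hx
  generalize toAdicCompletionAlgEquiv σ 𝒪 = e at hx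
  have h2 := Ideal.mem_map_of_mem (RingHomClass.toRingHom e.symm) hx
  have hc : (RingHomClass.toRingHom e.symm).comp (algebraMap (MvPolynomial σ 𝒪)
      (AdicCompletion (MvPolynomial.idealOfVars σ 𝒪) (MvPolynomial σ 𝒪))) =
      algebraMap (MvPolynomial σ 𝒪) (MvPowerSeries σ 𝒪) :=
    RingHom.ext fun q => e.symm.commutes q
  rw [Ideal.map_map, hc, map_idealOfVars_pow] at h2
  simpa using h2

lemma sub_C_constantCoeff_mem (p : MvPowerSeries σ 𝒪) :
    p - C (constantCoeff p) ∈ varIdeal σ 𝒪 := by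
  have h := sub_truncTotal_mem 1 p
  rw [pow_one] at h
  have ht : truncTotal 1 p = MvPolynomial.C (constantCoeff p) := by
    classical
    ext d
    by_cases hd : Finsupp.degree d < 1
    · have : d = 0 := (Finsupp.degree_eq_zero_iff d).mp (by omega)
      subst this
      rw [coeff_truncTotal _ (by simp)]
      simp
    · rw [coeff_truncTotal_eq_zero _ (by omega)]
      have : d ≠ 0 := by
        rintro rfl
        simp at hd
      rw [MvPolynomial.coeff_C, if_neg (Ne.symm this)]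
  rw [ht] at h
  simpa [MvPowerSeries.algebraMap_apply'] using h

variable {A : Type} [CommRing A] [Algebra 𝒪 A] (I : Ideal A)

omit [Finite σ] in
lemma aeval_mem_pow (a : σ → A) (ha : ∀ s, a s ∈ I) (n : ℕ) {p : MvPolynomial σ 𝒪}
    (hp : p ∈ MvPolynomial.idealOfVars σ 𝒪 ^ n) : MvPolynomial.aeval a p ∈ I ^ n := by
  have h1 : (MvPolynomial.idealOfVars σ 𝒪).map (MvPolynomial.aeval a) ≤ I := by
    rw [MvPolynomial.idealOfVars, Ideal.map_span, Ideal.span_le]
    rintro _ ⟨_, ⟨i, rfl⟩, rfl⟩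
    simpa using ha i
  have h2 := Ideal.mem_map_of_mem (MvPolynomial.aeval a) hp
  rw [Ideal.map_pow] at h2
  exact Ideal.pow_right_mono h1 n h2

/-- Evaluation modulo `I ^ n`. -/
def evalMod (a : σ → A) (ha : ∀ s, a s ∈ I) (n : ℕ) : MvPowerSeries σ 𝒪 →ₐ[𝒪] A ⧸ I ^ n :=
  (Ideal.Quotient.liftₐ (MvPolynomial.idealOfVars σ 𝒪 ^ n)
      ((Ideal.Quotient.mkₐ 𝒪 (I ^ n)).comp (MvPolynomial.aeval a))
      (fun p hp => Ideal.Quotient.eq_zero_iff_mem.mpr (aeval_mem_pow I a ha n hp))).comp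
    ((truncTotalAlgHom σ 𝒪 n).restrictScalars 𝒪)

lemma evalMod_apply (a : σ → A) (ha : ∀ s, a s ∈ I) (n : ℕ) (p : MvPowerSeries σ 𝒪) :
    evalMod I a ha n p = Ideal.Quotient.mk (I ^ n) (MvPolynomial.aeval a (truncTotal n p)) :=
  rfl

omit [Finite σ] in
lemma mk_eq_mk_of_sub_mem {n : ℕ} {x y : A} (h : x - y ∈ I ^ n) :
    Ideal.Quotient.mk (I ^ n) x = Ideal.Quotient.mk (I ^ n) y :=
  Ideal.Quotient.eq.mpr h

lemma evalMod_compat (a : σ → A) (ha : ∀ s, a s ∈ I) {m n : ℕ} (hle : m ≤ n) :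
    (Ideal.Quotient.factorₐ 𝒪 (Ideal.pow_le_pow_right hle)).comp (evalMod I a ha n) =
      evalMod I a ha m := by
  refine AlgHom.ext fun p => ?_
  simp only [AlgHom.comp_apply, evalMod_apply]
  refine (Ideal.Quotient.factor_mk (Ideal.pow_le_pow_right hle) _).trans (mk_eq_mk_of_sub_mem I ?_)
  rw [← map_sub]
  exact aeval_mem_pow I a ha m (truncTotal_sub_truncTotal_mem_pow_idealOfVars hle le_rfl _)

attribute [local irreducible] evalMod

variable [IsAdicComplete I A]

/-- Evaluation of power series at a family in the ideal of an adically complete algebra. -/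
def pev (a : σ → A) (ha : ∀ s, a s ∈ I) : MvPowerSeries σ 𝒪 →ₐ[𝒪] A :=
  IsAdicComplete.liftAlgHom I (evalMod I a ha) (evalMod_compat I a ha)

lemma mk_pev (a : σ → A) (ha : ∀ s, a s ∈ I) (n : ℕ) (p : MvPowerSeries σ 𝒪) :
    Ideal.Quotient.mk (I ^ n) (pev I a ha p) =
      Ideal.Quotient.mk (I ^ n) (MvPolynomial.aeval a (truncTotal n p)) := by
  rw [← evalMod_apply I a ha n p]
  unfold pev
  exact IsAdicComplete.mk_liftAlgHom (R := 𝒪) (S := A) (A := MvPowerSeries σ 𝒪) I (evalMod I a ha) (fun {m n} hle => evalMod_compat I a ha hle) n p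

lemma pev_X (a : σ → A) (ha : ∀ s, a s ∈ I) (s : σ) : pev I a ha (X s : MvPowerSeries σ 𝒪) = a s := by
  refine eq_of_forall_sub_mem_pow I fun n => ?_
  rw [← Ideal.Quotient.mk_eq_mk_iff_sub_mem, mk_pev]
  have h : (X s : MvPowerSeries σ 𝒪) = algebraMap (MvPolynomial σ 𝒪) (MvPowerSeries σ 𝒪) (MvPolynomial.X s : MvPolynomial σ 𝒪) := by
    simp [MvPowerSeries.algebraMap_apply']
  have h2 := (truncTotalAlgHom σ 𝒪 n).commutes (MvPolynomial.X s : MvPolynomial σ 𝒪)
  rw [← h, truncTotalAlgHom_apply, Ideal.Quotient.algebraMap_eq] at h2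
  have h3 : truncTotal n (X s : MvPowerSeries σ 𝒪) - MvPolynomial.X s ∈
      MvPolynomial.idealOfVars σ 𝒪 ^ n := Ideal.Quotient.eq.mp h2
  have h4 := aeval_mem_pow I a ha n h3
  rw [map_sub, MvPolynomial.aeval_X] at h4
  exact Ideal.Quotient.eq.mpr h4

omit [IsAdicComplete I A] in
/-- Two homomorphisms out of the power series ring agree once they agree on the variables. -/
lemma algHom_ext_of_X [IsHausdorff I A] (f g : MvPowerSeries σ 𝒪 →ₐ[𝒪] A)
    (hfI : ∀ s, f (X s) ∈ I) (hfg : ∀ s, f (X s) = g (X s)) : f = g := by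
  have hgI : ∀ s, g (X s) ∈ I := fun s => hfg s ▸ hfI s
  have hpoly : f.comp (IsScalarTower.toAlgHom 𝒪 (MvPolynomial σ 𝒪) (MvPowerSeries σ 𝒪)) =
      g.comp (IsScalarTower.toAlgHom 𝒪 (MvPolynomial σ 𝒪) (MvPowerSeries σ 𝒪)) := by
    refine MvPolynomial.algHom_ext fun i => ?_
    simpa [MvPowerSeries.algebraMap_apply'] using hfg i
  have hle : ∀ h : MvPowerSeries σ 𝒪 →ₐ[𝒪] A, (∀ s, h (X s) ∈ I) → ∀ n,
      ∀ p ∈ varIdeal σ 𝒪 ^ n, h p ∈ I ^ n := by
    intro h hh n p hp
    have h1 : (varIdeal σ 𝒪).map h ≤ I := by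
      rw [varIdeal, Ideal.map_span, Ideal.span_le]
      rintro _ ⟨_, ⟨i, rfl⟩, rfl⟩
      exact hh i
    have h2 := Ideal.mem_map_of_mem h hp
    rw [Ideal.map_pow] at h2
    exact Ideal.pow_right_mono h1 n h2
  refine AlgHom.ext fun p => eq_of_forall_sub_mem_pow I fun n => ?_
  have hp := sub_truncTotal_mem n p
  have hf1 := hle f hfI n _ hp
  have hg1 := hle g hgI n _ hp
  have h2 := DFunLike.congr_fun hpoly (truncTotal n p)
  simp only [AlgHom.comp_apply, IsScalarTower.coe_toAlgHom'] at h2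
  have h3 := Ideal.sub_mem _ hf1 hg1
  rw [map_sub, map_sub, h2, sub_sub_sub_cancel_right] at h3
  exact h3

end

/-- A surjective ring map transports precompleteness. -/
lemma isPrecomplete_map_of_surjective {P R : Type} [CommRing P] [CommRing R] (f : P →+* R)
    (hf : Function.Surjective f) (I : Ideal P) [IsPrecomplete I P] :
    IsPrecomplete (I.map f) R := by
  refine ⟨fun x hx => ?_⟩
  simp only [smul_eq_mul, Ideal.mul_top, SModEq.sub_mem] at hx ⊢
  have hlift : ∀ n, ∃ d ∈ I ^ n, f d = x (n + 1) - x n := by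
    intro n
    have h := hx (Nat.le_succ n)
    rw [← Ideal.neg_mem_iff, neg_sub, ← Ideal.map_pow] at h
    exact (Ideal.mem_map_iff_of_surjective f hf).mp h
  choose d hd hfd using hlift
  obtain ⟨y0, hy0⟩ := hf (x 0)
  let y : ℕ → P := fun n => y0 + ∑ i ∈ Finset.range n, d i
  have hfy : ∀ n, f (y n) = x n := by
    intro n
    induction n with
    | zero => simp [y, hy0]
    | succ n ih =>
      have : y (n + 1) = y n + d n := by simp [y, Finset.sum_range_succ, add_assoc]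
      rw [this, map_add, ih, hfd]
      ring
  have hcauchy : ∀ {m n : ℕ}, m ≤ n → y m ≡ y n [SMOD (I ^ m • ⊤ : Ideal P)] := by
    intro m n hmn
    rw [SModEq.sub_mem, smul_eq_mul, Ideal.mul_top, ← Ideal.neg_mem_iff, neg_sub]
    have : y n - y m = ∑ i ∈ Finset.Ico m n, d i := by
      rw [Finset.sum_Ico_eq_sub _ hmn]
      simp [y]
    rw [this]
    exact Ideal.sum_mem _ fun i hi =>
      Ideal.pow_le_pow_right (Finset.mem_Ico.mp hi).1 (hd i)
  obtain ⟨L, hL⟩ := IsPrecomplete.prec inferInstance hcauchy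
  refine ⟨f L, fun n => ?_⟩
  have := hL n
  rw [SModEq.sub_mem, smul_eq_mul, Ideal.mul_top] at this
  have h2 := Ideal.mem_map_of_mem f this
  rwa [map_sub, hfy, Ideal.map_pow] at h2

end Fermat.Agent.Deform
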