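import Mathlib
import Fermat.Agent.Deform.Points

/-!
Finiteness of the tangent space gives finitely many entries generating every lift.
-/

set_option autoImplicit false

noncomputable section

namespace Fermat.Agent.Deform

open IsLocalRing Module TrivSqZeroExt

variable (𝒪 : Type) [CommRing 𝒪] [IsLocalRing 𝒪]

/-- The algebra structure on dual numbers used to define tangent vectors. -/
@[reducible] def dualAlgebra : Algebra 𝒪 (DualNumber (ResidueField 𝒪)) :=
  ((algebraMap (ResidueField 𝒪) (DualNumber (ResidueField 𝒪))).comp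
    (algebraMap 𝒪 (ResidueField 𝒪))).toAlgebra

variable {𝒪}
variable {F : Frame 𝒪}
  {𝒟 : ∀ ⦃A : Type⦄ [CommRing A] [IsLocalRing A] [Algebra 𝒪 A], GaloisRepAdic A → Prop}

lemma isTest_dual [Finite (ResidueField 𝒪)] :
    letI := dualAlgebra 𝒪
    GaloisRep.IsArtinianTestAlgebra 𝒪 (DualNumber (ResidueField 𝒪)) := by
  letI := dualAlgebra 𝒪
  have : Finite (DualNumber (ResidueField 𝒪)) :=
    Finite.of_injective (fun x : DualNumber (ResidueField 𝒪) => (x.fst, x.snd))
      (fun x y h => TrivSqZeroExt.ext (congrArg Prod.fst h) (congrArg Prod.snd h))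
  refine ⟨⟨fun t ht => ?_⟩, fun x => ?_, inferInstance⟩
  · rw [TrivSqZeroExt.isUnit_iff_isUnit_fst] at ht
    exact IsUnit.of_map (residue 𝒪) t ht
  · obtain ⟨y, rfl⟩ := residue_surjective x
    obtain ⟨t, ht⟩ := residue_surjective (TrivSqZeroExt.fst y)
    refine ⟨t, ?_⟩
    rw [Function.comp_apply, ← sub_eq_zero, ← map_sub, residue_eq_zero_iff, mem_maximalIdeal,
      mem_nonunits_iff, TrivSqZeroExt.isUnit_iff_isUnit_fst]
    have : TrivSqZeroExt.fst (algebraMap 𝒪 (DualNumber (ResidueField 𝒪)) t - y) = 0 := by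
      rw [TrivSqZeroExt.fst_sub]
      show residue 𝒪 t - _ = 0
      rw [ht, sub_self]
    rw [this]
    exact not_isUnit_zero

variable (F 𝒟) in
/-- A normalised lift to the dual numbers of type `𝒟`. -/
def IsTangentLift (r : Γ →* M2 (DualNumber (ResidueField 𝒪))) : Prop :=
  letI := dualAlgebra 𝒪
  ∃ hr : MCont r, 𝒟 (toRep r hr) ∧ F.Lifts r ∧ F.Normal r

variable (F 𝒟) in
/-- A finite set of entries separating normalised lifts to the dual numbers. -/
def Separating (S : Finset (Γ × Fin 2 × Fin 2)) : Prop :=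
  ∀ r₁ r₂, IsTangentLift F 𝒟 r₁ → IsTangentLift F 𝒟 r₂ →
    (∀ s ∈ S, entry r₁ s = entry r₂ s) → r₁ = r₂

lemma finite_tangentLifts [Finite (ResidueField 𝒪)]
    (ρbar : ResidualGaloisRep (ResidueField 𝒪))
    (b0 : Basis (Fin 2) (ResidueField 𝒪) ρbar.V) (hr0 : F.r0 = repMat b0 ρbar.ρ)
    (hfin : GaloisRep.TangentFinite 𝒪 ρbar 𝒟) :
    Finite {r // IsTangentLift F 𝒟 r} := by
  letI : Algebra 𝒪 (DualNumber (ResidueField 𝒪)) := dualAlgebra 𝒪
  letI algk : Algebra (ResidueField 𝒪) (ResidueField (DualNumber (ResidueField 𝒪))) :=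
    ((IsLocalRing.residue (DualNumber (ResidueField 𝒪))).comp
      (algebraMap (ResidueField 𝒪) (DualNumber (ResidueField 𝒪)))).toAlgebra
  have hD := isTest_dual (𝒪 := 𝒪)
  have := hD.isLocalHom
  have hι : ResidueField.map (algebraMap 𝒪 (DualNumber (ResidueField 𝒪))) =
      algebraMap (ResidueField 𝒪) (ResidueField (DualNumber (ResidueField 𝒪))) := by
    refine RingHom.ext fun x => ?_
    obtain ⟨t, rfl⟩ := residue_surjective x
    rfl
  have hres : ∀ r : {r // IsTangentLift F 𝒟 r},
      (toRep r.1 r.2.choose).residual.IsEquiv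
        (ρbar.baseChange (ResidueField (DualNumber (ResidueField 𝒪)))) := by
    intro r
    have h := F.residual_isEquiv hr0 r.2.choose r.2.choose_spec.2.1
    rw [hι] at h
    unfold ResidualGaloisRep.baseChangeAlong at h
    convert h using 2
  unfold GaloisRep.TangentFinite at hfin
  refine @Finite.of_injective _ _ hfin
    (fun r => Quotient.mk _ ⟨toRep r.1 r.2.choose, r.2.choose_spec.1, hres r⟩) ?_
  intro r r' h
  obtain ⟨M, hM, hconj⟩ := (isEquiv_toRep_iff r.1 r'.1 r.2.choose r'.2.choose).mp (Quotient.exact h)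
  exact Subtype.ext (Frame.eq_of_conj r.2.choose_spec.2.1 r'.2.choose_spec.2.1
    r.2.choose_spec.2.2 r'.2.choose_spec.2.2 hM hconj)

lemma exists_separating [Finite (ResidueField 𝒪)]
    (ρbar : ResidualGaloisRep (ResidueField 𝒪))
    (b0 : Basis (Fin 2) (ResidueField 𝒪) ρbar.V) (hr0 : F.r0 = repMat b0 ρbar.ρ)
    (hfin : GaloisRep.TangentFinite 𝒪 ρbar 𝒟) : ∃ S, Separating F 𝒟 S := by
  classical
  have := finite_tangentLifts ρbar b0 hr0 hfin
  cases nonempty_fintype {r // IsTangentLift F 𝒟 r}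
  let sep : {r // IsTangentLift F 𝒟 r} × {r // IsTangentLift F 𝒟 r} → Γ × Fin 2 × Fin 2 :=
    fun p => if h : ∃ x, entry p.1.1 x ≠ entry p.2.1 x then h.choose else (1, 0, 0)
  refine ⟨Finset.univ.image sep, fun r₁ r₂ h₁ h₂ h => ?_⟩
  by_contra hne
  have hex : ∃ x, entry r₁ x ≠ entry r₂ x := by
    by_contra hc
    push Not at hc
    exact hne (MonoidHom.ext fun σ => Matrix.ext fun i j => hc (σ, i, j))
  have hx := h (sep (⟨r₁, h₁⟩, ⟨r₂, h₂⟩)) (Finset.mem_image_of_mem _ (Finset.mem_univ _))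
  simp only [sep, dif_pos hex] at hx
  exact hex.choose_spec hx

variable (h𝒟 : GaloisRep.IsDeformationCondition 𝒪 𝒟)
include h𝒟

/-- The key generation statement. -/
theorem adjoin_separating_eq_top [Finite (ResidueField 𝒪)] {S : Finset (Γ × Fin 2 × Fin 2)}
    (hS : Separating F 𝒟 S) (p : Pt F 𝒟) :
    Algebra.adjoin 𝒪 (entry p.r '' (S : Set (Γ × Fin 2 × Fin 2))) = ⊤ := by
  classical
  set C := Algebra.adjoin 𝒪 (entry p.r '' (S : Set (Γ × Fin 2 × Fin 2))) with hC
  have := finite_of_test p.test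
  have := p.test.isLocalHom
  set m := maximalIdeal p.A with hmdef
  set I : Ideal p.A := m ^ 2 ⊔ (maximalIdeal 𝒪).map (algebraMap 𝒪 p.A) with hIdef
  set N0 : Submodule 𝒪 p.A := Subalgebra.toSubmodule C ⊔ Submodule.restrictScalars 𝒪 I with hN0
  -- First the statement modulo `m ^ 2` and the maximal ideal of the coefficient ring.
  have hN0top : N0 = ⊤ := by
    by_contra hne
    obtain ⟨N, hN, hle⟩ := (eq_top_or_exists_le_coatom N0).resolve_left hne
    haveI : IsSimpleModule 𝒪 (p.A ⧸ N) := isSimpleModule_iff_isCoatom.mpr hN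
    obtain ⟨J, hJ, ⟨e⟩⟩ := isSimpleModule_iff_quot_maximal.mp
      (inferInstance : IsSimpleModule 𝒪 (p.A ⧸ N))
    obtain rfl : J = maximalIdeal 𝒪 := eq_maximalIdeal hJ
    let f : p.A →ₗ[𝒪] ResidueField 𝒪 := e.toLinearMap.comp N.mkQ
    have hf : ∀ a, f a = 0 ↔ a ∈ N := fun a => by
      show e (N.mkQ a) = 0 ↔ _
      rw [map_eq_zero_iff _ e.injective, Submodule.mkQ_apply, Submodule.Quotient.mk_eq_zero]
    have hfC : ∀ c ∈ C, f c = 0 := fun c hc =>
      (hf c).mpr (hle (Submodule.mem_sup_left hc))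
    have hfI : ∀ c ∈ I, f c = 0 := fun c hc => (hf c).mpr (hle (Submodule.mem_sup_right hc))
    have hfalg : ∀ t, f (algebraMap 𝒪 p.A t) = 0 := fun t => hfC _ (C.algebraMap_mem t)
    obtain ⟨ψ, hψ⟩ := exists_residueHom p.test.residue_surjective
    have hmul : ∀ a b, f (a * b) = ψ a * f b + ψ b * f a := by
      intro a b
      obtain ⟨t, ht⟩ := residue_surjective (ψ a)
      obtain ⟨s, hs⟩ := residue_surjective (ψ b)
      have hx : a - algebraMap 𝒪 p.A t ∈ m := by
        rw [hmdef, ← hψ, map_sub, AlgHom.commutes, ← ht]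
        exact sub_self _
      have hy : b - algebraMap 𝒪 p.A s ∈ m := by
        rw [hmdef, ← hψ, map_sub, AlgHom.commutes, ← hs]
        exact sub_self _
      have hxy : f ((a - algebraMap 𝒪 p.A t) * (b - algebraMap 𝒪 p.A s)) = 0 :=
        hfI _ (Submodule.mem_sup_left (pow_two m ▸ Ideal.mul_mem_mul hx hy))
      have h2 : a * b = (a - algebraMap 𝒪 p.A t) * (b - algebraMap 𝒪 p.A s)
          + t • b + s • a - algebraMap 𝒪 p.A (t * s) := by
        simp only [Algebra.smul_def, map_mul]; ring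
      rw [h2, map_sub, map_add, map_add, hxy, hfalg, map_smul, map_smul, Algebra.smul_def,
        Algebra.smul_def, ← ht, ← hs, ResidueField.algebraMap_eq]
      ring
    have hf1 : f 1 = 0 := by simpa using hfalg 1
    letI : Algebra 𝒪 (DualNumber (ResidueField 𝒪)) := dualAlgebra 𝒪
    let φ : p.A →ₐ[𝒪] DualNumber (ResidueField 𝒪) :=
      { toFun := fun a => TrivSqZeroExt.inl (ψ a) + TrivSqZeroExt.inr (f a)
        map_one' := by
          refine TrivSqZeroExt.ext ?_ ?_ <;> simp [hf1]
        map_mul' := fun a b => by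
          refine TrivSqZeroExt.ext ?_ ?_
          · simp
          · simp only [snd_mul, snd_add, snd_inl, snd_inr, fst_add, fst_inl, fst_inr, zero_add,
              add_zero, hmul]
            simp only [smul_eq_mul, MulOpposite.smul_eq_mul_unop, MulOpposite.unop_op]
            ring
        map_zero' := by simp
        map_add' := fun a b => by
          refine TrivSqZeroExt.ext ?_ ?_ <;> simp
        commutes' := fun t => by
          rw [hfalg, AlgHom.commutes]
          simp
          rfl }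
    let φ0 : p.A →ₐ[𝒪] DualNumber (ResidueField 𝒪) :=
      { toFun := fun a => TrivSqZeroExt.inl (ψ a)
        map_one' := by simp
        map_mul' := fun a b => by simp [TrivSqZeroExt.inl_mul]
        map_zero' := by simp
        map_add' := fun a b => by simp [TrivSqZeroExt.inl_add]
        commutes' := fun t => by rw [AlgHom.commutes]; rfl }
    have hD := isTest_dual (𝒪 := 𝒪)
    have hloc := fun χ : p.A →ₐ[𝒪] DualNumber (ResidueField 𝒪) =>
      isLocalHom_algHom_of_test hD χ
    have hT : ∀ χ : p.A →ₐ[𝒪] DualNumber (ResidueField 𝒪),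
        IsTangentLift F 𝒟 (mapRep (χ : p.A →+* DualNumber (ResidueField 𝒪)) p.r) := fun χ =>
      ⟨mcont_mapRep _ (hloc χ) _ p.hr, typ_map h𝒟 p.test hD χ _ p.typ,
        p.lifts.map χ (hloc χ), p.normal.map χ⟩
    have heq := hS _ _ (hT φ) (hT φ0) fun s hs => by
      show TrivSqZeroExt.inl (ψ (entry p.r s)) + TrivSqZeroExt.inr (f (entry p.r s)) =
        TrivSqZeroExt.inl (ψ (entry p.r s))
      rw [hfC _ (Algebra.subset_adjoin ⟨s, hs, rfl⟩), TrivSqZeroExt.inr_zero, add_zero]
    have hent : ∀ x, f (entry p.r x) = 0 := by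
      intro x
      have h1 : φ (entry p.r x) = φ0 (entry p.r x) := congrArg (fun r => entry r x) heq
      have h2 := congrArg TrivSqZeroExt.snd h1
      simpa [φ, φ0] using h2
    have hall : ∀ a, f a = 0 := by
      intro a
      have ha : a ∈ Algebra.adjoin 𝒪 (Set.range (entry p.r)) := p.gen ▸ Algebra.mem_top
      induction ha using Algebra.adjoin_induction with
      | mem x hx => obtain ⟨y, rfl⟩ := hx; exact hent y
      | algebraMap t => exact hfalg t
      | add x y _ _ hx hy => rw [map_add, hx, hy, add_zero]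
      | mul x y _ _ hx hy => rw [hmul, hx, hy, mul_zero, mul_zero, add_zero]
    exact hN.1 (eq_top_iff.mpr fun a _ => (hf a).mp (hall a))
  -- Now bootstrap along the powers of the maximal ideal.
  let M : ℕ → Submodule 𝒪 p.A := fun j =>
    Subalgebra.toSubmodule C ⊔ Submodule.restrictScalars 𝒪 (m ^ j)
  have hsmul : ∀ j, ∀ c : p.A, c ∈ C → c ∈ M j := fun j c hc => Submodule.mem_sup_left hc
  have hpow : ∀ j, ∀ c : p.A, c ∈ m ^ j → c ∈ M j := fun j c hc => Submodule.mem_sup_right hc
  have key : ∀ k, ∀ v ∈ m ^ k, v ∈ M (k + 1) := by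
    intro k
    induction k with
    | zero =>
      intro v _
      obtain ⟨t, ht⟩ := p.test.residue_surjective (residue p.A v)
      rw [Function.comp_apply, ← sub_eq_zero, ← map_sub, residue_eq_zero_iff] at ht
      have : v = algebraMap 𝒪 p.A t + -(algebraMap 𝒪 p.A t - v) := by ring
      rw [this]
      exact Submodule.add_mem _ (hsmul _ _ (C.algebraMap_mem t))
        (hpow _ _ (by rw [zero_add, pow_one]; exact Ideal.neg_mem_iff _ |>.mpr ht))
    | succ k ih =>
      intro z hz
      rw [pow_succ'] at hz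
      refine Submodule.mul_induction_on hz (fun u hu v hv => ?_)
        (fun x y hx hy => Submodule.add_mem _ hx hy)
      obtain ⟨c2, hc2, v', hv', rfl⟩ := Submodule.mem_sup.mp (ih v hv)
      have hv'' : v' ∈ m ^ (k + 1) := hv'
      have hc2k : c2 ∈ m ^ k := by
        simpa using Ideal.sub_mem _ hv (Ideal.pow_le_pow_right (Nat.le_succ k) hv'')
      obtain ⟨c1, hc1, w, hw, rfl⟩ := Submodule.mem_sup.mp (hN0top ▸ (Submodule.mem_top :
        u ∈ (⊤ : Submodule 𝒪 p.A)) : u ∈ N0)
      have h1 : (c1 + w) * v' ∈ M (k + 1 + 1) :=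
        hpow _ _ (pow_succ' m (k + 1) ▸ Ideal.mul_mem_mul hu hv'')
      have h2 : c1 * c2 ∈ M (k + 1 + 1) := hsmul _ _ (C.mul_mem hc1 hc2)
      obtain ⟨w1, hw1, q, hq, rfl⟩ := Submodule.mem_sup.mp
        (show w ∈ m ^ 2 ⊔ (maximalIdeal 𝒪).map (algebraMap 𝒪 p.A) from hw)
      have h3 : w1 * c2 ∈ M (k + 1 + 1) := hpow _ _ (by
        rw [show k + 1 + 1 = 2 + k from by omega, pow_add]
        exact Ideal.mul_mem_mul hw1 hc2k)
      have h4 : q * c2 ∈ M (k + 1 + 1) := by
        suffices ∀ c ∈ m ^ k, q * c ∈ M (k + 1 + 1) from this c2 hc2k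
        refine Submodule.span_induction
          (p := fun q _ => ∀ c ∈ m ^ k, q * c ∈ M (k + 1 + 1)) ?_ ?_ ?_ ?_ hq
        · rintro _ ⟨t, ht, rfl⟩ c hc
          obtain ⟨c3, hc3, v3, hv3, rfl⟩ := Submodule.mem_sup.mp (ih c hc)
          rw [mul_add]
          refine Submodule.add_mem _ (hsmul _ _ (C.mul_mem (C.algebraMap_mem t) hc3)) (hpow _ _ ?_)
          rw [pow_succ' m (k + 1)]
          exact Ideal.mul_mem_mul (map_nonunit _ t ht) hv3
        · intro c hc; rw [zero_mul]; exact Submodule.zero_mem _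
        · intro x y _ _ hx hy c hc
          rw [add_mul]; exact Submodule.add_mem _ (hx c hc) (hy c hc)
        · intro a x _ hx c hc
          rw [smul_eq_mul, mul_comm a, mul_assoc]
          exact hx _ (Ideal.mul_mem_left _ a hc)
      have : (c1 + (w1 + q)) * (c2 + v') = c1 * c2 + w1 * c2 + q * c2 + (c1 + (w1 + q)) * v' := by
        ring
      rw [this]
      exact Submodule.add_mem _ (Submodule.add_mem _ (Submodule.add_mem _ h2 h3) h4) h1
  have hMtop : ∀ j, ∀ v : p.A, v ∈ M j := by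
    intro j
    induction j with
    | zero => exact fun v => hpow _ _ (by simp)
    | succ j ih =>
      intro v
      obtain ⟨c, hc, w, hw, rfl⟩ := Submodule.mem_sup.mp (ih v)
      exact Submodule.add_mem _ (hsmul _ _ hc) (key j w hw)
  obtain ⟨n, hn⟩ := exists_maximalIdeal_pow_eq_bot p.test
  rw [eq_top_iff]
  intro v _
  obtain ⟨c, hc, w, hw, rfl⟩ := Submodule.mem_sup.mp (hMtop n v)
  rw [Submodule.restrictScalars_mem, hmdef, hn, Ideal.mem_bot] at hw
  rw [hw, add_zero]
  exact hc

end Fermat.Agent.Deform
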