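import Mathlib
import Fermat.Prelude.Def_GaloisRep_DeformationRingData
import Fermat.Agent.Deform.PowerSeries
import Fermat.Agent.Deform.Tangent

/-!
Construction of the universal deformation ring.
-/

set_option autoImplicit false

noncomputable section

namespace Fermat.Agent.Deform

open IsLocalRing Module

variable {𝒪 : Type} [CommRing 𝒪] [IsLocalRing 𝒪] (F : Frame 𝒪) (ϖ : 𝒪)
  (S : Finset (Γ × Fin 2 × Fin 2))

/-- The values of the variables attached to a lift. -/
def tgt {A : Type} [CommRing A] [Algebra 𝒪 A] (r : Γ →* M2 A) : Option S → A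
  | none => algebraMap 𝒪 A ϖ
  | some s => entry r s.1 - algebraMap 𝒪 A (F.R0 s.1.1 s.1.2.1 s.1.2.2)

lemma tgt_map {A B : Type} [CommRing A] [CommRing B] [Algebra 𝒪 A] [Algebra 𝒪 B]
    (h : A →ₐ[𝒪] B) (r : Γ →* M2 A) (s : Option S) :
    h (tgt F ϖ S r s) = tgt F ϖ S (mapRep (h : A →+* B) r) s := by
  cases s with
  | none => exact h.commutes ϖ
  | some s => simp [tgt, entry, mapRep_apply]

variable {F} (hϖ : maximalIdeal 𝒪 = Ideal.span {ϖ})

include hϖ in
lemma tgt_mem {A : Type} [CommRing A] [IsLocalRing A] [Algebra 𝒪 A]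
    [IsLocalHom (algebraMap 𝒪 A)] {r : Γ →* M2 A} (hl : F.Lifts r) (s : Option S) :
    tgt F ϖ S r s ∈ maximalIdeal A := by
  cases s with
  | none => exact map_nonunit _ ϖ (hϖ ▸ Ideal.mem_span_singleton_self ϖ)
  | some s => exact hl _ _ _

variable {𝒟 : ∀ ⦃A : Type⦄ [CommRing A] [IsLocalRing A] [Algebra 𝒪 A], GaloisRepAdic A → Prop}

/-- The evaluation attached to a point. -/
def Pt.ev (p : Pt F 𝒟) : MvPowerSeries (Option S) 𝒪 →ₐ[𝒪] p.A :=
  haveI := p.test.isArtinian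
  haveI := p.test.isLocalHom
  pev (maximalIdeal p.A) (tgt F ϖ S p.r) (tgt_mem ϖ S hϖ p.lifts)

lemma Pt.ev_X (p : Pt F 𝒟) (s : Option S) :
    p.ev ϖ S hϖ (MvPowerSeries.X s) = tgt F ϖ S p.r s := by
  have := p.test.isArtinian
  exact pev_X _ _ _ s

lemma Pt.comp_ev (p q : Pt F 𝒟) (h : q.A →ₐ[𝒪] p.A)
    (hh : mapRep (h : q.A →+* p.A) q.r = p.r) :
    h.comp (q.ev ϖ S hϖ) = p.ev ϖ S hϖ := by
  have := p.test.isArtinian
  have := p.test.isLocalHom
  refine algHom_ext_of_X (maximalIdeal p.A) _ _ (fun s => ?_) (fun s => ?_)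
  · rw [AlgHom.comp_apply, Pt.ev_X, tgt_map, hh]
    exact tgt_mem ϖ S hϖ p.lifts s
  · rw [AlgHom.comp_apply, Pt.ev_X, tgt_map, hh, Pt.ev_X]

variable (F 𝒟) in
/-- The ideal of relations. -/
def relIdeal : Ideal (MvPowerSeries (Option S) 𝒪) :=
  ⨅ p : Pt F 𝒟, RingHom.ker (p.ev ϖ S hϖ)

variable (F 𝒟) in
/-- The universal ring. -/
abbrev URing : Type := MvPowerSeries (Option S) 𝒪 ⧸ relIdeal F ϖ S hϖ 𝒟

/-- The projection of the universal ring to a point. -/
def Pt.proj (p : Pt F 𝒟) : URing F ϖ S hϖ 𝒟 →ₐ[𝒪] p.A :=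
  Ideal.Quotient.liftₐ _ (p.ev ϖ S hϖ)
    (fun a ha => RingHom.mem_ker.mp ((Submodule.mem_iInf _).mp ha p))

lemma Pt.proj_mk (p : Pt F 𝒟) (a : MvPowerSeries (Option S) 𝒪) :
    p.proj ϖ S hϖ (Ideal.Quotient.mk _ a) = p.ev ϖ S hϖ a := rfl

lemma Pt.comp_proj (p q : Pt F 𝒟) (h : q.A →ₐ[𝒪] p.A)
    (hh : mapRep (h : q.A →+* p.A) q.r = p.r) (x : URing F ϖ S hϖ 𝒟) :
    h (q.proj ϖ S hϖ x) = p.proj ϖ S hϖ x := by
  obtain ⟨a, rfl⟩ := Ideal.Quotient.mk_surjective x
  rw [Pt.proj_mk, Pt.proj_mk]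
  exact DFunLike.congr_fun (Pt.comp_ev ϖ S hϖ p q h hh) a

lemma eq_of_forall_proj {x y : URing F ϖ S hϖ 𝒟}
    (h : ∀ p : Pt F 𝒟, p.proj ϖ S hϖ x = p.proj ϖ S hϖ y) : x = y := by
  obtain ⟨a, rfl⟩ := Ideal.Quotient.mk_surjective x
  obtain ⟨b, rfl⟩ := Ideal.Quotient.mk_surjective y
  rw [Ideal.Quotient.mk_eq_mk_iff_sub_mem]
  refine (Submodule.mem_iInf _).mpr fun p => ?_
  rw [RingHom.mem_ker, map_sub, sub_eq_zero]
  exact h p

lemma Pt.proj_surjective [Finite (ResidueField 𝒪)]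
    (h𝒟 : GaloisRep.IsDeformationCondition 𝒪 𝒟) (hS : Separating F 𝒟 S) (p : Pt F 𝒟) :
    Function.Surjective (p.proj ϖ S hϖ) := by
  rw [← AlgHom.range_eq_top, eq_top_iff, ← adjoin_separating_eq_top h𝒟 hS p]
  refine Algebra.adjoin_le ?_
  rintro _ ⟨s, hs, rfl⟩
  refine ⟨Ideal.Quotient.mk _ (MvPowerSeries.X (some ⟨s, hs⟩) +
    algebraMap 𝒪 _ (F.R0 s.1 s.2.1 s.2.2)), ?_⟩
  show p.proj ϖ S hϖ _ = _
  rw [Pt.proj_mk, map_add, AlgHom.commutes, Pt.ev_X]
  simp [tgt]

lemma algebraMap_ϖ_eq :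
    algebraMap 𝒪 (URing F ϖ S hϖ 𝒟) ϖ = Ideal.Quotient.mk _ (MvPowerSeries.X none) :=
  eq_of_forall_proj ϖ S hϖ fun p => by
    rw [AlgHom.commutes, Pt.proj_mk, Pt.ev_X]
    rfl

/-- The universal deformation ring and its universal representation exist. -/
theorem nonempty_deformationRingData_of_frame
    (𝒪 : Type) [CommRing 𝒪] [IsDomain 𝒪] [IsDiscreteValuationRing 𝒪]
    [IsAdicComplete (maximalIdeal 𝒪) 𝒪] [Finite (ResidueField 𝒪)]
    (ρbar : ResidualGaloisRep (ResidueField 𝒪))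
    (𝒟 : ∀ ⦃A : Type⦄ [CommRing A] [IsLocalRing A] [Algebra 𝒪 A], GaloisRepAdic A → Prop)
    (habs : ρbar.IsAbsolutelyIrreducible)
    (h𝒟 : GaloisRep.IsDeformationCondition 𝒪 𝒟)
    (hbar : 𝒟 (GaloisRepAdic.ofResidualGaloisRep ρbar))
    (hfin : GaloisRep.TangentFinite 𝒪 ρbar 𝒟) :
    Nonempty (GaloisRep.DeformationRingData 𝒪 ρbar 𝒟) := by
  classical
  let b0 : Basis (Fin 2) (ResidueField 𝒪) ρbar.V := Module.finBasisOfFinrankEq _ _ ρbar.finrank_eq
  obtain ⟨F, hr0⟩ := exists_frame ρbar habs b0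
  obtain ⟨S, hS⟩ := exists_separating (F := F) (𝒟 := 𝒟) ρbar b0 hr0 hfin
  obtain ⟨ϖ, hirr⟩ := IsDiscreteValuationRing.exists_irreducible 𝒪
  have hϖ : maximalIdeal 𝒪 = Ideal.span {ϖ} := hirr.maximalIdeal_eq
  obtain ⟨p0⟩ := exists_residual_pt (F := F) h𝒟 ρbar b0 hr0 hbar
  -- abbreviations
  let R := URing F ϖ S hϖ 𝒟
  let π : ∀ p : Pt F 𝒟, R →ₐ[𝒪] p.A := fun p => p.proj ϖ S hϖ
  have hπs : ∀ p, Function.Surjective (π p) := fun p => Pt.proj_surjective ϖ S hϖ h𝒟 hS p
  haveI : Nontrivial R := (π p0).toRingHom.domain_nontrivial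
  haveI : IsLocalRing R := IsLocalRing.of_surjective' (Ideal.Quotient.mk _) Ideal.Quotient.mk_surjective
  haveI : IsNoetherianRing R := inferInstance
  have hπl : ∀ p, IsLocalHom (π p : R →+* p.A) := fun p => IsLocalHom.of_surjective _ (hπs p)
  haveI hlocR : IsLocalHom (algebraMap 𝒪 R) := ⟨fun t ht => by
    have := p0.test.isLocalHom
    exact IsUnit.of_map (algebraMap 𝒪 p0.A) t (by simpa using ht.map (π p0))⟩
  -- maximal ideal
  have hmax : maximalIdeal R = (varIdeal (Option S) 𝒪).map (Ideal.Quotient.mk _) := by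
    refine le_antisymm (fun x hx => ?_) (Ideal.map_le_iff_le_comap.mpr ?_)
    · obtain ⟨a, rfl⟩ := Ideal.Quotient.mk_surjective x
      have hc : MvPowerSeries.constantCoeff a ∈ maximalIdeal 𝒪 := fun hu =>
        hx ((MvPowerSeries.isUnit_iff_constantCoeff.mpr hu).map _)
      rw [hϖ, Ideal.mem_span_singleton] at hc
      obtain ⟨u, hu⟩ := hc
      have : Ideal.Quotient.mk (relIdeal F ϖ S hϖ 𝒟) a =
          Ideal.Quotient.mk _ (a - MvPowerSeries.C (MvPowerSeries.constantCoeff a)) +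
            Ideal.Quotient.mk _ (MvPowerSeries.X none) * algebraMap 𝒪 R u := by
        rw [← algebraMap_ϖ_eq, ← map_mul, ← hu, map_sub]
        exact (sub_add_cancel _ _).symm
      rw [this]
      exact Ideal.add_mem _ (Ideal.mem_map_of_mem _ (sub_C_constantCoeff_mem a))
        (Ideal.mul_mem_right _ _ (Ideal.mem_map_of_mem _ (Ideal.subset_span ⟨none, rfl⟩)))
    · rw [varIdeal, Ideal.span_le]
      rintro _ ⟨s, rfl⟩
      intro hu
      have := p0.test.isLocalHom
      have h2 := hu.map (π p0)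
      rw [show π p0 (Ideal.Quotient.mk _ (MvPowerSeries.X s)) = tgt F ϖ S p0.r s from
        Pt.ev_X ϖ S hϖ p0 s] at h2
      exact tgt_mem ϖ S hϖ p0.lifts s h2
  haveI : IsHausdorff (maximalIdeal R) R := inferInstance
  haveI hpre : IsPrecomplete (maximalIdeal R) R := by
    haveI : IsAdicComplete (varIdeal (Option S) 𝒪) (MvPowerSeries (Option S) 𝒪) := by
      unfold varIdeal; infer_instance
    rw [hmax]
    exact isPrecomplete_map_of_surjective _ Ideal.Quotient.mk_surjective _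
  haveI : IsAdicComplete (maximalIdeal R) R := {}
  have hres : Function.Surjective (residue R ∘ algebraMap 𝒪 R) := by
    intro x
    obtain ⟨y, rfl⟩ := residue_surjective x
    obtain ⟨a, rfl⟩ := Ideal.Quotient.mk_surjective y
    refine ⟨MvPowerSeries.constantCoeff a, ?_⟩
    rw [Function.comp_apply, ← sub_eq_zero, ← map_sub, residue_eq_zero_iff, hmax]
    have := Ideal.mem_map_of_mem (Ideal.Quotient.mk (relIdeal F ϖ S hϖ 𝒟))
      (Ideal.neg_mem_iff _ |>.mpr (sub_C_constantCoeff_mem a))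
    rw [neg_sub, map_sub] at this
    exact this
  haveI : Finite (ResidueField R) := finite_residueField hres
  -- kernels of projections
  have hker : ∀ q : Pt F 𝒟, ∃ n, ∀ j, n ≤ j → ∀ x ∈ maximalIdeal R ^ j, π q x = 0 := by
    intro q
    obtain ⟨n, hn⟩ := exists_maximalIdeal_pow_eq_bot q.test
    refine ⟨n, fun j hj x hx => ?_⟩
    have := hπl q
    have h1 : (maximalIdeal R).map (π q : R →+* q.A) ≤ maximalIdeal q.A :=
      Ideal.map_le_iff_le_comap.mpr fun a ha => map_nonunit (π q : R →+* q.A) a ha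
    have h2 := Ideal.mem_map_of_mem (π q : R →+* q.A) (Ideal.pow_le_pow_right hj hx)
    rw [Ideal.map_pow] at h2
    have h3 := Ideal.pow_right_mono h1 n h2
    rwa [hn, Ideal.mem_bot] at h3
  have hleast : ∀ n, ∃ p : Pt F 𝒟, ∀ q : Pt F 𝒟, ∀ x, π p x = 0 →
      ∃ y, π q y = 0 ∧ x - y ∈ maximalIdeal R ^ n := by
    intro n
    haveI : Finite (R ⧸ maximalIdeal R ^ n) := finite_quotient_iff.mpr ⟨n, le_rfl⟩
    let K : Pt F 𝒟 → Submodule (R ⧸ maximalIdeal R ^ n) (R ⧸ maximalIdeal R ^ n) := fun p =>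
      (RingHom.ker (π p)).map (Ideal.Quotient.mk _)
    obtain ⟨_, ⟨p, rfl⟩, hmin⟩ := set_has_minimal_iff_artinian.mpr
      (inferInstance : IsArtinianRing (R ⧸ maximalIdeal R ^ n)) (Set.range K) ⟨_, p0, rfl⟩
    refine ⟨p, fun q x hx => ?_⟩
    obtain ⟨s, f, g, hf, hg⟩ := exists_dominate h𝒟 p q
    have hsp : K s ≤ K p := Ideal.map_mono fun a (ha : π s a = 0) => by
      show π p a = 0
      rw [← Pt.comp_proj ϖ S hϖ p s f hf a]
      exact (congrArg f ha).trans (map_zero f)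
    have hKK : K s = K p := (eq_or_lt_of_le hsp).resolve_right (hmin _ ⟨s, rfl⟩)
    have hxs : Ideal.Quotient.mk _ x ∈ K s := hKK ▸ Ideal.mem_map_of_mem _ hx
    obtain ⟨y, hy, hxy⟩ := (Ideal.mem_map_iff_of_surjective _ Ideal.Quotient.mk_surjective).mp hxs
    refine ⟨y, ?_, Ideal.Quotient.eq.mp hxy.symm⟩
    rw [show π q y = g (π s y) from (Pt.comp_proj ϖ S hϖ q s g hg y).symm,
      show π s y = 0 from hy, map_zero]
  choose P hP using hleast
  have hsmall : ∀ n x, π (P n) x = 0 → x ∈ maximalIdeal R ^ n := by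
    intro n x hx
    have step : ∀ j (z : {z : R // π (P (n + j)) z = 0}),
        ∃ z' : {z : R // π (P (n + (j + 1))) z = 0}, z.1 - z'.1 ∈ maximalIdeal R ^ (n + j) :=
      fun j z => let ⟨y, hy, h⟩ := hP (n + j) (P (n + (j + 1))) z.1 z.2; ⟨⟨y, hy⟩, h⟩
    choose next hnext using step
    let f : ∀ j, {z : R // π (P (n + j)) z = 0} := fun j =>
      Nat.rec (motive := fun j => {z : R // π (P (n + j)) z = 0}) ⟨x, hx⟩ next j
    have hsum : ∀ {a b : ℕ}, a ≤ b → (f a).1 - (f b).1 ∈ maximalIdeal R ^ (n + a) := by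
      intro a b hab
      induction b, hab using Nat.le_induction with
      | base => rw [sub_self]; exact Submodule.zero_mem _
      | succ b hab ih =>
        have := Ideal.add_mem _ ih (Ideal.pow_le_pow_right (by omega) (hnext b (f b)))
        rwa [sub_add_sub_cancel] at this
    obtain ⟨y, hy⟩ := IsPrecomplete.prec hpre (f := fun j => (f j).1) (fun {a b} hab => by
      rw [SModEq.sub_mem, smul_eq_mul, Ideal.mul_top]
      exact Ideal.pow_le_pow_right (by omega) (hsum hab))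
    simp only [SModEq.sub_mem, smul_eq_mul, Ideal.mul_top] at hy
    have hy0 : y = 0 := eq_of_forall_proj ϖ S hϖ fun q => by
      obtain ⟨N, hN⟩ := hker q
      have h1 := hN N le_rfl _ (hy N)
      obtain ⟨w, hw, hw'⟩ := hP (n + N) q (f N).1 (f N).2
      have h2 := hN (n + N) (by omega) _ hw'
      rw [map_sub, sub_eq_zero] at h1
      rw [map_sub, hw, sub_zero] at h2
      show π q y = π q 0
      rw [← h1, h2, map_zero]
    have h1 := hsum (a := 0) (b := n) (Nat.zero_le _)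
    have h2 := hy n
    rw [hy0, sub_zero] at h2
    have h3 := Ideal.add_mem _ (Ideal.pow_le_pow_right (by omega : n ≤ n + 0) h1) h2
    rw [sub_add_cancel] at h3
    exact h3
  -- the universal entries
  have hE : ∀ n x, ∃ a, π (P n) a = entry (P n).r x := fun n x => hπs _ _
  choose E hEspec using hE
  have hclaim : ∀ q n x, ∃ a, π q a = entry q.r x ∧ a - E n x ∈ maximalIdeal R ^ n := by
    intro q n x
    obtain ⟨s, f, g, hf, hg⟩ := exists_dominate h𝒟 (P n) q
    obtain ⟨a, ha⟩ := hπs s (entry s.r x)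
    refine ⟨a, ?_, hsmall n _ ?_⟩
    · rw [show π q a = g (π s a) from (Pt.comp_proj ϖ S hϖ q s g hg a).symm, ha, ← hg]
      rfl
    · rw [map_sub, hEspec, sub_eq_zero,
        show π (P n) a = f (π s a) from (Pt.comp_proj ϖ S hϖ (P n) s f hf a).symm, ha, ← hf]
      rfl
  have hcauchy : ∀ x n, E (n + 1) x - E n x ∈ maximalIdeal R ^ n := by
    intro x n
    obtain ⟨a, ha, ha'⟩ := hclaim (P (n + 1)) n x
    have h1 : E (n + 1) x - a ∈ maximalIdeal R ^ n :=
      Ideal.pow_le_pow_right (Nat.le_succ n) (hsmall _ _ (by rw [map_sub, hEspec, ha, sub_self]))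
    simpa using Ideal.add_mem _ h1 ha'
  have hlim : ∀ x, ∃ e : R, ∀ n, E n x - e ∈ maximalIdeal R ^ n := by
    intro x
    have hsum : ∀ {a b : ℕ}, a ≤ b → E a x - E b x ∈ maximalIdeal R ^ a := by
      intro a b hab
      induction b, hab using Nat.le_induction with
      | base => rw [sub_self]; exact Submodule.zero_mem _
      | succ b hab ih =>
        have := Ideal.sub_mem _ ih (Ideal.pow_le_pow_right hab (hcauchy x b))
        rwa [sub_sub_sub_cancel_right] at this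
    obtain ⟨y, hy⟩ := IsPrecomplete.prec hpre (f := fun j => E j x) (fun {a b} hab => by
      rw [SModEq.sub_mem, smul_eq_mul, Ideal.mul_top]; exact hsum hab)
    simp only [SModEq.sub_mem, smul_eq_mul, Ideal.mul_top] at hy
    exact ⟨y, hy⟩
  choose e he using hlim
  have hπe : ∀ q x, π q (e x) = entry q.r x := by
    intro q x
    obtain ⟨N, hN⟩ := hker q
    obtain ⟨a, ha, ha'⟩ := hclaim q N x
    have h1 := hN N le_rfl _ (Ideal.add_mem _ ha' (he x N))
    rw [sub_add_sub_cancel, map_sub, ha, sub_eq_zero] at h1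
    exact h1.symm
  let rU : Γ →* M2 R :=
    { toFun := fun σ => Matrix.of fun i j => e (σ, i, j)
      map_one' := by
        refine Matrix.ext fun i j => eq_of_forall_proj ϖ S hϖ fun q => ?_
        show π q (e (1, i, j)) = π q ((1 : M2 R) i j)
        rw [hπe]
        show q.r 1 i j = _
        rw [map_one, Matrix.one_apply, Matrix.one_apply]
        split_ifs <;> simp
      map_mul' := fun σ τ => by
        refine Matrix.ext fun i j => eq_of_forall_proj ϖ S hϖ fun q => ?_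
        show π q (e (σ * τ, i, j)) = π q (((Matrix.of fun i j => e (σ, i, j)) * (Matrix.of fun i j => e (τ, i, j)) : M2 R) i j)
        simp only [Matrix.mul_apply, map_sum, map_mul, Matrix.of_apply, hπe]
        show q.r (σ * τ) i j = _
        rw [map_mul, Matrix.mul_apply]
        rfl }
  have hmapU : ∀ q, mapRep (π q : R →+* q.A) rU = q.r := fun q =>
    MonoidHom.ext fun σ => Matrix.ext fun i j => hπe q (σ, i, j)
  have hcontU : MCont rU := by
    intro n
    obtain ⟨N, hN⟩ := exists_maximalIdeal_pow_eq_bot (P n).test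
    obtain ⟨L, hL, h⟩ := (P n).hr N
    refine ⟨L, hL, fun σ hσ i j => hsmall n _ ?_⟩
    have h1 := h σ hσ i j
    rw [hN, Ideal.mem_bot] at h1
    rw [map_sub, show π (P n) (rU σ i j) = (P n).r σ i j from hπe _ (σ, i, j),
      show π (P n) ((1 : M2 R) i j) = (1 : M2 (P n).A) i j by
        rw [Matrix.one_apply, Matrix.one_apply]; split_ifs <;> simp]
    exact h1
  have hliftU : F.Lifts rU := fun σ i j hu => by
    have h2 := hu.map (π p0)
    rw [map_sub, AlgHom.commutes, show π p0 (rU σ i j) = p0.r σ i j from hπe _ (σ, i, j)] at h2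
    exact p0.lifts σ i j h2
  have hnormU : F.Normal rU := by
    have key : ∀ q c i j, π q (elt 𝒪 c rU i j) = elt 𝒪 c q.r i j := by
      intro q c i j
      rw [← hmapU q]
      exact congrFun (congrFun (elt_map (π q) c rU) i) j
    refine ⟨?_, ?_, ?_⟩ <;> refine eq_of_forall_proj ϖ S hϖ fun q => ?_
    · exact (key q _ _ _).trans (q.normal.1.trans (map_zero _).symm)
    · exact (key q _ _ _).trans (q.normal.2.1.trans (map_zero _).symm)
    · exact (key q _ _ _).trans (q.normal.2.2.trans (map_one _).symm)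
  have htypU : 𝒟 (toRep rU hcontU) := by
    refine (h𝒟.iff_forall_surjective hlocR hres _).mpr fun B _ _ _ hB g hg hgs => ?_
    obtain ⟨N, hN⟩ := exists_maximalIdeal_pow_eq_bot hB
    have hkerle : ∀ x, π (P N) x = 0 → g x = 0 := by
      intro x hx
      have := hg
      have h1 : (maximalIdeal R).map (g : R →+* B) ≤ maximalIdeal B :=
        Ideal.map_le_iff_le_comap.mpr fun a ha => map_nonunit (g : R →+* B) a ha
      have h2 := Ideal.mem_map_of_mem (g : R →+* B) (hsmall N x hx)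
      rw [Ideal.map_pow] at h2
      have h3 := Ideal.pow_right_mono h1 N h2
      rwa [hN, Ideal.mem_bot] at h3
    let h : (P N).A →ₐ[𝒪] B :=
      (Ideal.Quotient.liftₐ (RingHom.ker (π (P N))) g (fun a ha => hkerle a (RingHom.mem_ker.mp ha))).comp
        (Ideal.quotientKerAlgEquivOfSurjective (hπs (P N))).symm.toAlgHom
    have hh : ∀ x, h (π (P N) x) = g x := by
      intro x
      have : (Ideal.quotientKerAlgEquivOfSurjective (hπs (P N))).symm (π (P N) x) =
          Ideal.Quotient.mk _ x := (AlgEquiv.symm_apply_eq _).mpr rfl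
      simp only [h, AlgHom.comp_apply]
      rw [show (Ideal.quotientKerAlgEquivOfSurjective (hπs (P N))).symm.toAlgHom (π (P N) x) =
        Ideal.Quotient.mk _ x from this]
      rfl
    have hmap : mapRep (h : (P N).A →+* B) (P N).r = mapRep (g : R →+* B) rU :=
      MonoidHom.ext fun σ => Matrix.ext fun i j => by
        show h ((P N).r σ i j) = g (rU σ i j)
        rw [← hh, show π (P N) (rU σ i j) = (P N).r σ i j from hπe _ (σ, i, j)]
    refine (typ_congr h𝒟 hB (isEquiv_baseChangeAlong_toRep _ hg rU hcontU)).mpr ?_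
    have hloc := (P N).test.isLocalHom
    have hh' := isLocalHom_algHom_of_test hB h
    have := typ_map h𝒟 (P N).test hB h (mcont_mapRep _ hh' _ (P N).hr) (P N).typ
    simpa only [hmap] using this
  refine ⟨{ R := R, residue_surjective := hres, absIrr := habs, ρ := toRep rU hcontU
            isOfType := htypU, residual_isEquiv := F.residual_isEquiv hr0 hcontU hliftU
            universal := ?_ }⟩
  intro A _ _ _ _ _ _ hA ρA hρA hresA
  obtain ⟨r, hr, hl, hn, ⟨eA⟩⟩ := F.exists_normal_form ρbar b0 hr0 ρA hresA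
  let evA : MvPowerSeries (Option S) 𝒪 →ₐ[𝒪] A :=
    pev (maximalIdeal A) (tgt F ϖ S r) (tgt_mem ϖ S hϖ hl)
  haveI : Finite (ResidueField A) := finite_residueField hA
  have hlevel : ∀ n : ℕ, 1 ≤ n → ∃ (p : Pt F 𝒟) (ι : p.A →ₐ[𝒪] A ⧸ maximalIdeal A ^ n),
      (∀ a, Ideal.Quotient.mk _ (evA a) = ι (p.ev ϖ S hϖ a)) ∧
      (∀ x, ι (entry p.r x) = Ideal.Quotient.mk _ (entry r x)) := by
    intro n hn1
    haveI : Nontrivial (A ⧸ maximalIdeal A ^ n) := Ideal.Quotient.nontrivial_iff.mpr fun htop =>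
      (maximalIdeal.isMaximal A).ne_top
        (top_le_iff.mp (htop ▸ Ideal.pow_le_self (by omega)))
    haveI : IsLocalRing (A ⧸ maximalIdeal A ^ n) :=
      IsLocalRing.of_surjective' _ Ideal.Quotient.mk_surjective
    haveI : Finite (A ⧸ maximalIdeal A ^ n) := finite_quotient_iff.mpr ⟨n, le_rfl⟩
    let qn : A →ₐ[𝒪] A ⧸ maximalIdeal A ^ n := Ideal.Quotient.mkₐ 𝒪 _
    have hqs : Function.Surjective qn := Ideal.Quotient.mk_surjective
    have hql : IsLocalHom (qn : A →+* A ⧸ maximalIdeal A ^ n) := IsLocalHom.of_surjective _ hqs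
    have hAn := isTest_of_surjective hA qn hqs
    have htn : 𝒟 (toRep (mapRep (qn : A →+* A ⧸ maximalIdeal A ^ n) r) (mcont_mapRep _ hql r hr)) := by
      have h1 := (h𝒟.iff_forall_surjective inferInstance hA ρA).mp hρA hAn qn hql hqs
      refine (typ_congr h𝒟 hAn ?_).mp h1
      obtain ⟨e2⟩ := isEquiv_baseChangeAlong_toRep _ hql r hr
      exact ⟨(GaloisRepAdic.Equiv.baseChangeAlong _ hql eA).trans e2⟩
    obtain ⟨p, ι, -, hp⟩ := exists_pt (F := F) h𝒟 hAn _ _ htn (hl.map qn hql) (hn.map qn)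
    refine ⟨p, ι, fun a => ?_, fun x => congrArg (fun s => entry s x) hp⟩
    have := hAn.isArtinian
    have := hAn.isLocalHom
    refine DFunLike.congr_fun (algHom_ext_of_X (maximalIdeal (A ⧸ maximalIdeal A ^ n))
      (qn.comp evA) (ι.comp (p.ev ϖ S hϖ)) (fun s => ?_) (fun s => ?_)) a
    · rw [AlgHom.comp_apply, pev_X, tgt_map]
      exact tgt_mem ϖ S hϖ (hl.map qn hql) s
    · rw [AlgHom.comp_apply, pev_X, AlgHom.comp_apply, Pt.ev_X, tgt_map, tgt_map, hp]
  have hkill : ∀ a ∈ relIdeal F ϖ S hϖ 𝒟, evA a = 0 := by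
    intro a ha
    refine eq_of_forall_sub_mem_pow (maximalIdeal A) fun n => ?_
    rw [sub_zero]
    rcases Nat.eq_zero_or_pos n with rfl | hn1
    · simp
    · obtain ⟨p, ι, h1, -⟩ := hlevel n hn1
      rw [← Ideal.Quotient.eq_zero_iff_mem, h1, RingHom.mem_ker.mp ((Submodule.mem_iInf _).mp ha p),
        map_zero]
  let φ : R →ₐ[𝒪] A := Ideal.Quotient.liftₐ _ evA hkill
  have hφl : IsLocalHom (φ : R →+* A) := by
    refine ((local_hom_TFAE (φ : R →+* A)).out 0 2).mpr ?_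
    rw [hmax, Ideal.map_map, varIdeal, Ideal.map_span, Ideal.span_le]
    rintro _ ⟨_, ⟨s, rfl⟩, rfl⟩
    show evA (MvPowerSeries.X s) ∈ maximalIdeal A
    rw [pev_X]
    exact tgt_mem ϖ S hϖ hl s
  have hφe : mapRep (φ : R →+* A) rU = r := by
    refine MonoidHom.ext fun σ => Matrix.ext fun i j => ?_
    refine eq_of_forall_sub_mem_pow (maximalIdeal A) fun n => ?_
    rcases Nat.eq_zero_or_pos n with rfl | hn1
    · simp
    · obtain ⟨p, ι, h1, h2⟩ := hlevel n hn1
      rw [← Ideal.Quotient.mk_eq_mk_iff_sub_mem]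
      show Ideal.Quotient.mk _ (φ (e (σ, i, j))) = Ideal.Quotient.mk _ (entry r (σ, i, j))
      obtain ⟨a, ha⟩ := Ideal.Quotient.mk_surjective (e (σ, i, j))
      rw [← ha, show φ (Ideal.Quotient.mk _ a) = evA a from rfl, h1, ← h2, ← hπe p]
      show ι (p.ev ϖ S hϖ a) = ι (p.proj ϖ S hϖ (e (σ, i, j)))
      rw [← ha, Pt.proj_mk]
  refine ⟨φ, ⟨hφl, ?_⟩, ?_⟩
  · obtain ⟨e1⟩ := isEquiv_baseChangeAlong_toRep (φ : R →+* A) hφl rU hcontU
    refine ⟨e1.trans ?_⟩
    simp only [hφe]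
    exact eA.symm
  · rintro φ' ⟨hφ'l, ⟨e'⟩⟩
    obtain ⟨e1⟩ := isEquiv_baseChangeAlong_toRep (φ' : R →+* A) hφ'l rU hcontU
    obtain ⟨M, hM, hconj⟩ := (isEquiv_toRep_iff _ r (mcont_mapRep _ hφ'l rU hcontU) hr).mp
      ⟨(e1.symm.trans e').trans eA⟩
    have heq : mapRep (φ' : R →+* A) rU = r :=
      Frame.eq_of_conj (hliftU.map φ' hφ'l) hl (hnormU.map φ') hn hM hconj
    have hX : ∀ s, φ' (Ideal.Quotient.mk _ (MvPowerSeries.X s)) = tgt F ϖ S r s := by
      intro s
      have hU : Ideal.Quotient.mk (relIdeal F ϖ S hϖ 𝒟) (MvPowerSeries.X s) = tgt F ϖ S rU s := by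
        refine eq_of_forall_proj ϖ S hϖ fun q => ?_
        rw [Pt.proj_mk, Pt.ev_X, tgt_map]
        exact (congrArg (fun r => tgt F ϖ S r s) (hmapU q)).symm
      rw [hU, tgt_map, heq]
    have hall : φ'.comp (Ideal.Quotient.mkₐ 𝒪 _) = evA := by
      refine algHom_ext_of_X (maximalIdeal A) _ _ (fun s => ?_) (fun s => ?_)
      · rw [AlgHom.comp_apply, Ideal.Quotient.mkₐ_eq_mk, hX]; exact tgt_mem ϖ S hϖ hl s
      · rw [AlgHom.comp_apply, Ideal.Quotient.mkₐ_eq_mk, hX, pev_X]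
    refine AlgHom.ext fun x => ?_
    obtain ⟨a, rfl⟩ := Ideal.Quotient.mk_surjective x
    exact DFunLike.congr_fun hall a

end Fermat.Agent.Deform
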